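import Fermat.Agent.S05L.E1

/-!
# S05 package, part 1b: congruent integral points with nonsingular reduction differ by a point of `E₁`

(statements frozen)
-/

set_option autoImplicit false

namespace Fermat.Agent.S05L

variable {L : Type*} [Field L] {α β : L} {E : Type*} [AddCommGroup E] (M : LegModel L α β E)
  {Γ₀ : Type*} [LinearOrderedCommGroupWithZero Γ₀] (v : Valuation L Γ₀)

/-- the derivative of `f(X) = X (X - α) (X + β)` -/
def fder (α β X : L) : L := 3 * X ^ 2 + 2 * (β - α) * X - α * β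

theorem fder_def (X : L) : fder α β X = 3 * X ^ 2 + 2 * (β - α) * X - α * β := rfl

/-! ### small valuation helpers -/

theorem h9_v_add_le {a b : L} (ha : v a ≤ 1) (hb : v b ≤ 1) : v (a + b) ≤ 1 :=
  (Valuation.map_add _ _ _).trans (max_le ha hb)

theorem h9_v_sub_le {a b : L} (ha : v a ≤ 1) (hb : v b ≤ 1) : v (a - b) ≤ 1 :=
  (Valuation.map_sub _ _ _).trans (max_le ha hb)

theorem h9_v_mul_le {a b : L} (ha : v a ≤ 1) (hb : v b ≤ 1) : v (a * b) ≤ 1 := by
  rw [map_mul]; exact mul_le_one' ha hb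

theorem h9_v_mul_lt {a b : L} (ha : v a < 1) (hb : v b ≤ 1) : v (a * b) < 1 := by
  rw [map_mul]
  calc v a * v b ≤ v a * 1 := by gcongr
    _ < 1 := by rwa [mul_one]

theorem h9_v_pow_le {a : L} (ha : v a ≤ 1) (n : ℕ) : v (a ^ n) ≤ 1 := by
  rw [map_pow]; exact pow_le_one' ha n

theorem h9_v_two_le : v (2 : L) ≤ 1 := by
  have : (2 : L) = 1 + 1 := by norm_num
  rw [this]; exact h9_v_add_le v (by simp) (by simp)

theorem h9_v_ofNat_le (n : ℕ) : v (n : L) ≤ 1 := by
  induction n with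
  | zero => simp
  | succ k ih => rw [Nat.cast_succ]; exact h9_v_add_le v ih (by simp)

/-- if `a ≡ b mod 𝔪` and `v b = 1` then `v a = 1` -/
theorem h9_v_eq_one_of_sub {a b : L} (hb : v b = 1) (hab : v (a - b) < 1) : v a = 1 := by
  have : a = b + (a - b) := by ring
  rw [this, Valuation.map_add_eq_of_lt_left (v := v) (by rw [hb]; exact hab), hb]

theorem h9_one_lt_of_mul_eq_one {a b : L} (h : v a * v b = 1) (hb : v b < 1) : 1 < v a := by
  by_contra hc
  replace hc := not_lt.1 hc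
  have : v a * v b < 1 := by
    calc v a * v b ≤ 1 * v b := by gcongr
      _ < 1 := by rwa [one_mul]
  exact absurd h this.ne

/-- integrality of `Y` from integrality of `X` -/
theorem v_Y_le_one (hα : v α ≤ 1) (hβ : v β ≤ 1) {P : E} (hP : P ≠ 0) (hX : v (M.X P) ≤ 1) :
    v (M.Y P) ≤ 1 := by
  have h := M.eqn P hP
  have h1 : v (M.Y P) ^ 2 ≤ 1 := by
    rw [← map_pow, h]
    exact h9_v_mul_le v (h9_v_mul_le v hX (h9_v_sub_le v hX hα)) (h9_v_add_le v hX hβ)
  by_contra hc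
  replace hc := not_le.1 hc
  have : 1 < v (M.Y P) ^ 2 := one_lt_pow' hc two_ne_zero
  exact absurd h1 (not_le.2 this)

/-- `f(X') - f(X) = (X' - X) * g` with `g ≡ f'(X)` modulo `𝔪` when `X, X'` are integral and
congruent -/
theorem f_sub_f (hα : v α ≤ 1) (hβ : v β ≤ 1) {x x' : L} (hx : v x ≤ 1) (hxx : v (x' - x) < 1) :
    ∃ g : L, x' * (x' - α) * (x' + β) - x * (x - α) * (x + β) = (x' - x) * g ∧
      v (g - fder α β x) < 1 := by
  refine ⟨x' ^ 2 + x' * x + x ^ 2 + (β - α) * (x' + x) - α * β, by ring, ?_⟩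
  have h : x' ^ 2 + x' * x + x ^ 2 + (β - α) * (x' + x) - α * β - fder α β x
      = (x' - x) * (x' + 2 * x + β - α) := by rw [fder_def]; ring
  rw [h]
  have hx' : v x' ≤ 1 := by
    have : x' = (x' - x) + x := by ring
    rw [this]; exact h9_v_add_le v hxx.le hx
  exact h9_v_mul_lt v hxx
    (h9_v_sub_le v (h9_v_add_le v (h9_v_add_le v hx' (h9_v_mul_le v (h9_v_two_le v) hx)) hβ) hα)

/-- chord sub-case of (II): `X Q ≠ X P` -/
theorem congr_sub_of_X_ne (h2 : v (2 : L) = 1) (hα : v α ≤ 1) (hβ : v β ≤ 1) {P Q : E}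
    (hP : P ≠ 0) (hQ : Q ≠ 0) (hPX : v (M.X P) ≤ 1) (hX : v (M.X Q - M.X P) < 1)
    (hY : v (M.Y Q - M.Y P) < 1)
    (hns : v (M.Y P) = 1 ∨ v (fder α β (M.X P)) = 1) (hne : M.X Q ≠ M.X P) :
    1 < v (M.X (Q + -P)) := by
  have hnP : -P ≠ 0 := neg_ne_zero.2 hP
  have hXn : M.X (-P) = M.X P := M.X_neg P hP
  have hYn : M.Y (-P) = -M.Y P := M.Y_neg P hP
  have hd : M.X Q - M.X P ≠ 0 := sub_ne_zero.2 hne
  have hQX : v (M.X Q) ≤ 1 := by
    have : M.X Q = (M.X Q - M.X P) + M.X P := by ring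
    rw [this]; exact h9_v_add_le v hX.le hPX
  have hPY : v (M.Y P) ≤ 1 := v_Y_le_one M v hα hβ hP hPX
  have hQY : v (M.Y Q) ≤ 1 := v_Y_le_one M v hα hβ hQ hQX
  have hXadd := M.X_add Q (-P) hQ hnP (by rw [hXn]; exact hne)
  rw [hXn, hYn, sub_neg_eq_add] at hXadd
  -- the slope is not integral
  have hΛ : 1 < v ((M.Y Q + M.Y P) / (M.X Q - M.X P)) := by
    have hdv : v (M.X Q - M.X P) ≠ 0 := (Valuation.ne_zero_iff v).2 hd
    rcases hns with h1 | h1
    · have hnum : v (M.Y Q + M.Y P) = 1 := by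
        have e : M.Y Q + M.Y P = 2 * M.Y P + (M.Y Q - M.Y P) := by ring
        have h2Y : v (2 * M.Y P) = 1 := by rw [map_mul, h2, h1, one_mul]
        rw [e, Valuation.map_add_eq_of_lt_left (v := v) (by rw [h2Y]; exact hY), h2Y]
      rw [map_div₀, hnum]
      exact (one_lt_div₀ (zero_lt_iff.2 hdv)).2 hX
    · obtain ⟨g, hg, hgv⟩ := f_sub_f v hα hβ hPX hX
      have hg1 : v g = 1 := h9_v_eq_one_of_sub v h1 hgv
      have hprod : (M.Y Q + M.Y P) * (M.Y Q - M.Y P) = (M.X Q - M.X P) * g := by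
        rw [← hg, ← M.eqn Q hQ, ← M.eqn P hP]; ring
      have hYne : M.Y Q - M.Y P ≠ 0 := by
        intro h0
        rw [h0, mul_zero] at hprod
        have hg0 : g = 0 := by
          rcases mul_eq_zero.1 hprod.symm with h | h
          · exact absurd h hd
          · exact h
        rw [hg0, map_zero] at hg1
        exact zero_ne_one hg1
      have hYv : v (M.Y Q - M.Y P) ≠ 0 := (Valuation.ne_zero_iff v).2 hYne
      have hΛeq : (M.Y Q + M.Y P) / (M.X Q - M.X P) = g / (M.Y Q - M.Y P) := by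
        rw [div_eq_div_iff hd hYne, hprod]; ring
      rw [hΛeq, map_div₀, hg1]
      exact (one_lt_div₀ (zero_lt_iff.2 hYv)).2 hY
  rw [hXadd]
  have hΛ2 : 1 < v (((M.Y Q + M.Y P) / (M.X Q - M.X P)) ^ 2) := by
    rw [map_pow]; exact one_lt_pow' hΛ two_ne_zero
  have e : ((M.Y Q + M.Y P) / (M.X Q - M.X P)) ^ 2 - (β - α) - M.X Q - M.X P
      = ((M.Y Q + M.Y P) / (M.X Q - M.X P)) ^ 2 + (-(β - α) - M.X Q - M.X P) := by ring
  have hrest : v (-(β - α) - M.X Q - M.X P) ≤ 1 := by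
    refine h9_v_sub_le v (h9_v_sub_le v ?_ hQX) hPX
    rw [Valuation.map_neg]; exact h9_v_sub_le v hβ hα
  rw [e, Valuation.map_add_eq_of_lt_left (v := v) (lt_of_le_of_lt hrest hΛ2)]
  exact hΛ2

/-- tangent sub-case of (II): `Q = -P ≠ P`, so `Q - P = Q + Q` -/
theorem congr_sub_of_eq_neg (h2 : v (2 : L) = 1) (hα : v α ≤ 1) (hβ : v β ≤ 1) {P : E}
    (hP : P ≠ 0) (hPX : v (M.X P) ≤ 1) (hY : v (M.Y P) < 1) (hY0 : M.Y P ≠ 0)
    (hns : v (fder α β (M.X P)) = 1) :
    P + P ≠ 0 ∧ 1 < v (M.X (P + P)) := by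
  have h20 : (2 : L) ≠ 0 := by
    intro h; rw [h, map_zero] at h2; exact zero_ne_one h2
  refine ⟨M.add_self_ne_zero_of_Y_ne_zero h20 hP hY0, ?_⟩
  have hd := M.dbl_X h20 hP hY0
  have hid : (M.X P ^ 2 + α * β) ^ 2
      = fder α β (M.X P) ^ 2 - M.Y P ^ 2 * (4 * (2 * M.X P + β - α)) := by
    rw [M.eqn P hP, fder_def]; ring
  have hsmall : v (M.Y P ^ 2 * (4 * (2 * M.X P + β - α))) < 1 := by
    have h4 : v (4 : L) ≤ 1 := by
      have : (4 : L) = 2 * 2 := by norm_num
      rw [this]; exact h9_v_mul_le v h2.le h2.le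
    have hY2 : v (M.Y P ^ 2) < 1 := by
      rw [map_pow]; exact pow_lt_one₀ zero_le hY two_ne_zero
    exact h9_v_mul_lt v hY2 (h9_v_mul_le v h4
      (h9_v_sub_le v (h9_v_add_le v (h9_v_mul_le v h2.le hPX) hβ) hα))
  have hunit : v ((M.X P ^ 2 + α * β) ^ 2) = 1 := by
    have hf2 : v (fder α β (M.X P) ^ 2) = 1 := by rw [map_pow, hns, one_pow]
    rw [hid, Valuation.map_sub_eq_of_lt_left (v := v) (by rw [hf2]; exact hsmall), hf2]
  rw [← hd, map_mul] at hunit
  have h4Y : v (4 * M.Y P ^ 2) < 1 := by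
    rw [mul_comm]
    have h4 : v (4 : L) ≤ 1 := by
      have : (4 : L) = 2 * 2 := by norm_num
      rw [this]; exact h9_v_mul_le v h2.le h2.le
    have hY2 : v (M.Y P ^ 2) < 1 := by
      rw [map_pow]; exact pow_lt_one₀ zero_le hY two_ne_zero
    exact h9_v_mul_lt v hY2 h4
  exact h9_one_lt_of_mul_eq_one v hunit h4Y

/-- **(II)**: integral points `P, Q` congruent modulo `𝔪`, with nonsingular reduction,
differ by a point of `E₁`. -/
theorem congr_sub_inE1 (h2 : v (2 : L) = 1) (hα : v α ≤ 1) (hβ : v β ≤ 1) {P Q : E}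
    (hP : P ≠ 0) (hQ : Q ≠ 0) (hPX : v (M.X P) ≤ 1) (hX : v (M.X Q - M.X P) < 1)
    (hY : v (M.Y Q - M.Y P) < 1)
    (hns : v (M.Y P) = 1 ∨ v (fder α β (M.X P)) = 1) :
    InE1 M v (Q - P) := by
  by_cases hne : M.X Q = M.X P
  · rcases M.eq_or_eq_neg_of_X_eq hQ hP hne with h | h
    · left; rw [h, sub_self]
    · -- `Q = -P`
      by_cases hY0 : M.Y P = 0
      · left
        have : P + P = 0 := M.add_self_eq_zero_of_Y_eq_zero hP hY0
        rw [h]
        have h' : -P - P = -(P + P) := by abel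
        rw [h', this, neg_zero]
      · have hYQ : M.Y Q = -M.Y P := by rw [h]; exact M.Y_neg P hP
        have hYlt : v (M.Y P) < 1 := by
          rw [hYQ] at hY
          have e : -M.Y P - M.Y P = -(2 * M.Y P) := by ring
          rw [e, Valuation.map_neg, map_mul, h2, one_mul] at hY
          exact hY
        have hf : v (fder α β (M.X P)) = 1 := by
          rcases hns with h1 | h1
          · exact absurd h1 hYlt.ne
          · exact h1
        obtain ⟨-, h3⟩ := congr_sub_of_eq_neg M v h2 hα hβ hP hPX hYlt hY0 hf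
        have h' : Q - P = -(P + P) := by rw [h]; abel
        rw [h']
        exact inE1_neg M v (Or.inr h3)
  · right
    rw [sub_eq_add_neg]
    exact congr_sub_of_X_ne M v h2 hα hβ hP hQ hPX hX hY hns hne

/-- good reduction: every integral point has nonsingular reduction -/
theorem nonsing_of_good (hα : v α = 1) (hβ : v β = 1) (hαβ : v (α + β) = 1) {P : E}
    (hP : P ≠ 0) (hX : v (M.X P) ≤ 1) :
    v (M.Y P) = 1 ∨ v (fder α β (M.X P)) = 1 := by
  have hYle := v_Y_le_one M v hα.le hβ.le hP hX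
  rcases hYle.lt_or_eq with hY | hY
  swap
  · exact Or.inl hY
  right
  have h := M.eqn P hP
  have hprod : v (M.X P) * v (M.X P - α) * v (M.X P + β) < 1 := by
    rw [← map_mul, ← map_mul, ← h, map_pow]; exact pow_lt_one₀ zero_le hY two_ne_zero
  have h1 : v (M.X P - α) ≤ 1 := h9_v_sub_le v hX hα.le
  have h2 : v (M.X P + β) ≤ 1 := h9_v_add_le v hX hβ.le
  by_cases c1 : v (M.X P) < 1
  · -- `X ≡ 0`: `f' ≡ -αβ`
    apply h9_v_eq_one_of_sub v (b := -(α * β)) (by rw [Valuation.map_neg, map_mul, hα, hβ, one_mul])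
    have e : fder α β (M.X P) - -(α * β) = M.X P * (3 * M.X P + 2 * (β - α)) := by
      rw [fder_def]; ring
    rw [e]
    refine h9_v_mul_lt v c1 (h9_v_add_le v (h9_v_mul_le v ?_ hX)
      (h9_v_mul_le v (h9_v_two_le v) (h9_v_sub_le v hβ.le hα.le)))
    simpa using h9_v_ofNat_le v 3
  by_cases c2 : v (M.X P - α) < 1
  · -- `X ≡ α`: `f' ≡ α(α+β)`
    apply h9_v_eq_one_of_sub v (b := α * (α + β)) (by rw [map_mul, hα, hαβ, one_mul])
    have e : fder α β (M.X P) - α * (α + β)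
        = (M.X P - α) * (3 * M.X P + α + 2 * β) := by
      rw [fder_def]; ring
    rw [e]
    refine h9_v_mul_lt v c2 (h9_v_add_le v (h9_v_add_le v (h9_v_mul_le v ?_ hX) hα.le)
      (h9_v_mul_le v (h9_v_two_le v) hβ.le))
    simpa using h9_v_ofNat_le v 3
  · -- `X ≡ -β`: `f' ≡ β(α+β)`
    have c3 : v (M.X P + β) < 1 := by
      by_contra c3
      have e1 : v (M.X P) = 1 := le_antisymm hX (not_lt.1 c1)
      have e2 : v (M.X P - α) = 1 := le_antisymm h1 (not_lt.1 c2)
      have e3 : v (M.X P + β) = 1 := le_antisymm h2 (not_lt.1 c3)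
      rw [e1, e2, e3] at hprod
      simp at hprod
    apply h9_v_eq_one_of_sub v (b := β * (α + β)) (by rw [map_mul, hβ, hαβ, one_mul])
    have e : fder α β (M.X P) - β * (α + β)
        = (M.X P + β) * (3 * M.X P - 2 * α - β) := by
      rw [fder_def]; ring
    rw [e]
    refine h9_v_mul_lt v c3 (h9_v_sub_le v (h9_v_sub_le v (h9_v_mul_le v ?_ hX)
      (h9_v_mul_le v (h9_v_two_le v) hα.le)) hβ.le)
    simpa using h9_v_ofNat_le v 3

/-- multiplicative reduction (`β ∈ 𝔪`): every point with `X` a unit has nonsingular reduction -/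
theorem nonsing_of_unit (hα : v α = 1) (hβ : v β < 1) {P : E}
    (hP : P ≠ 0) (hX : v (M.X P) = 1) :
    v (M.Y P) = 1 ∨ v (fder α β (M.X P)) = 1 := by
  have hYle := v_Y_le_one M v hα.le hβ.le hP hX.le
  rcases hYle.lt_or_eq with hY | hY
  swap
  · exact Or.inl hY
  right
  have h := M.eqn P hP
  have hprod : v (M.X P) * v (M.X P - α) * v (M.X P + β) < 1 := by
    rw [← map_mul, ← map_mul, ← h, map_pow]; exact pow_lt_one₀ zero_le hY two_ne_zero
  have h2 : v (M.X P + β) = 1 := by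
    rw [Valuation.map_add_eq_of_lt_left (v := v) (by rw [hX]; exact hβ), hX]
  rw [hX, h2, one_mul, mul_one] at hprod
  -- `X ≡ α`: `f' ≡ α²`
  apply h9_v_eq_one_of_sub v (b := α * α) (by rw [map_mul, hα, one_mul])
  have e : fder α β (M.X P) - α * α
      = (M.X P - α) * (3 * M.X P + α) + β * (2 * M.X P - α) := by
    rw [fder_def]; ring
  rw [e]
  have h3 : v ((3 : L)) ≤ 1 := by simpa using h9_v_ofNat_le v 3
  have t1 : v ((M.X P - α) * (3 * M.X P + α)) < 1 :=
    h9_v_mul_lt v hprod (h9_v_add_le v (h9_v_mul_le v h3 hX.le) hα.le)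
  have t2 : v (β * (2 * M.X P - α)) < 1 :=
    h9_v_mul_lt v hβ (h9_v_sub_le v (h9_v_mul_le v (h9_v_two_le v) hX.le) hα.le)
  exact Valuation.map_add_lt v t1 t2

end Fermat.Agent.S05L
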