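import Fermat.Agent.S05L.Types

/-!
# S05 package, part 1e: Lemma T and basic facts on the inertial `σ` (statements frozen)

Setting: `v α = 1`, `v β < 1`, `β = b ^ p`, `v 2 = 1`, `v p = 1`, `s² = -α`;
`σ` inertial (`σ 𝒱 = 𝒱`, trivial on the residue field) with `σ b = b`.
-/

set_option autoImplicit false

namespace Fermat.Agent.S05L

variable {L : Type*} [Field L] {α β : L} {E : Type*} [AddCommGroup E] (M : LegModel L α β E)
  {Γ₀ : Type*} [LinearOrderedCommGroupWithZero Γ₀] (v : Valuation L Γ₀)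
  (hα : v α = 1) (hβ : v β < 1) (h2 : v (2 : L) = 1) (s : L) (hs : s ^ 2 = -α)
include hα hβ h2 hs

/-- **Lemma T** (near₊): two near₊ points with `X'/X ∈ 1 + 𝔪` differ by a point of `E₁`. -/
theorem nearP_sub_inE1 {P Q : E} (hP : IsNearP M v s P) (hQ : IsNearP M v s Q)
    (h : v (M.X Q / M.X P - 1) < 1) : InE1 M v (Q - P) := by
  have hP0 : P ≠ 0 := hP.1.1
  have hQ0 : Q ≠ 0 := hQ.1.1
  have hX1 : M.X P ≠ 0 := X_ne_zero_of_isNear M v hβ hP.1
  have hX2 : M.X Q ≠ 0 := X_ne_zero_of_isNear M v hβ hQ.1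
  have hv1 : v (M.X P) ≠ 0 := (Valuation.ne_zero_iff v).2 hX1
  have hs1 : v s = 1 := v_s v hα hβ h2 s hs
  have h2s : v (2 * s) = 1 := by rw [map_mul, h2, hs1, one_mul]
  have hq : v (M.X Q / M.X P) = 1 := by
    have e : M.X Q / M.X P = 1 + (M.X Q / M.X P - 1) := by ring
    rw [e]
    exact Valuation.map_one_add_of_lt v h
  have hvv : v (M.X Q) = v (M.X P) := by
    rw [map_div₀] at hq
    exact eq_of_div_eq_one hq
  have hdiff : v (M.X Q - M.X P) < v (M.X P) := by
    have e : M.X Q - M.X P = (M.X Q / M.X P - 1) * M.X P := by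
      field_simp
    rw [e, map_mul]
    calc v (M.X Q / M.X P - 1) * v (M.X P) < 1 * v (M.X P) :=
          mul_lt_mul_of_pos_right h (zero_lt_iff.mpr hv1)
      _ = v (M.X P) := one_mul _
  have hnegP : IsNearM M v s (-P) := isNearM_neg M v hα hβ h2 s hs hP
  have hnP0 : -P ≠ 0 := hnegP.1.1
  have hXn : M.X (-P) = M.X P := M.X_neg P hP0
  have hτn : M.τ (-P) = -M.τ P := M.τ_neg hP0
  rw [sub_eq_add_neg]
  by_cases hne : M.X Q = M.X P
  · left
    rcases M.eq_or_eq_neg_of_X_eq hQ0 hP0 hne with e | e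
    · rw [e, add_neg_cancel]
    · exfalso
      rw [← e] at hnegP
      exact not_isNearP_and_isNearM M v hα hβ h2 s hs ⟨hQ, hnegP⟩
  · right
    have hne' : M.X Q ≠ M.X (-P) := by rw [hXn]; exact hne
    have hI := congrArg v (M.I2τ hQ0 hnP0 hne' hX2 (by rw [hXn]; exact hX1))
    rw [hXn, hτn, sub_neg_eq_add] at hI
    have hτ : v (M.τ Q + M.τ P) = 1 := by
      have e : M.τ Q + M.τ P = 2 * s + ((M.τ Q - s) + (M.τ P - s)) := by ring
      rw [e, Valuation.map_add_eq_of_lt_left v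
        (by rw [h2s]; exact Valuation.map_add_lt v hQ.2 hP.2), h2s]
    simp only [map_mul, map_pow, hτ, one_pow, mul_one, hvv] at hI
    by_contra hcon
    push Not at hcon
    have h1 : v (M.X (Q + -P)) * v (M.X Q - M.X P) ^ 2 ≤ 1 * v (M.X Q - M.X P) ^ 2 :=
      mul_le_mul_left hcon _
    rw [hI, one_mul] at h1
    have h3 : v (M.X Q - M.X P) ^ 2 < v (M.X P) * v (M.X P) := by
      rw [pow_two]
      calc v (M.X Q - M.X P) * v (M.X Q - M.X P)
          ≤ v (M.X Q - M.X P) * v (M.X P) := mul_le_mul' le_rfl hdiff.le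
        _ < v (M.X P) * v (M.X P) := mul_lt_mul_of_pos_right hdiff (zero_lt_iff.mpr hv1)
    exact absurd h1 (not_le.2 h3)

/-- **Lemma T** (near₋) -/
theorem nearM_sub_inE1 {P Q : E} (hP : IsNearM M v s P) (hQ : IsNearM M v s Q)
    (h : v (M.X Q / M.X P - 1) < 1) : InE1 M v (Q - P) := by
  have hs' : (-s) ^ 2 = -α := by rw [neg_sq, hs]
  have hP' : IsNearP M v (-s) P := ⟨hP.1, by rw [sub_neg_eq_add]; exact hP.2⟩
  have hQ' : IsNearP M v (-s) Q := ⟨hQ.1, by rw [sub_neg_eq_add]; exact hQ.2⟩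
  exact nearP_sub_inE1 M v hα hβ h2 (-s) hs' hP' hQ' h

section
variable (σ : L →+* L) (hσ : ∀ x : L, v x ≤ 1 ↔ v (σ x) ≤ 1)
  (hσm : ∀ x : L, v x ≤ 1 → v (σ x - x) < 1) (A : LegAut M σ)
include hσ hσm

/-- `σ` preserves the valuation of units and of elements of `𝔪`... : `v (σ x) < 1 ↔ v x < 1` -/
theorem v_σ_lt_one_iff (x : L) : v (σ x) < 1 ↔ v x < 1 := by
  constructor
  · intro hx
    have hx1 : v x ≤ 1 := (hσ x).2 hx.le
    rcases hx1.lt_or_eq with h | h
    · exact h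
    · exfalso
      have hm := hσm x hx1
      have e : σ x = x + (σ x - x) := by ring
      have : v (σ x) = 1 := by
        rw [e, Valuation.map_add_eq_of_lt_left v (by rw [h]; exact hm), h]
      rw [this] at hx
      exact lt_irrefl _ hx
  · intro hx
    have hm := hσm x hx.le
    have e : σ x = x + (σ x - x) := by ring
    rw [e]
    exact Valuation.map_add_lt v hx hm

/-- if `x ≠ 0` and `x = c * u` with `σ c = c`, `v u = 1`, then `σ x / x ∈ 1 + 𝔪` -/
theorem v_σ_div_sub_one {x c u : L} (hx : x = c * u) (hc : σ c = c) (hc0 : c ≠ 0)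
    (hu : v u = 1) : v (σ x / x - 1) < 1 := by
  have hu0 : u ≠ 0 := fun e => by rw [e, map_zero] at hu; exact zero_ne_one hu
  have e : σ x / x - 1 = (σ u - u) / u := by
    rw [hx, map_mul, hc]
    field_simp
  rw [e, map_div₀, hu, div_one]
  exact hσm u hu.le

theorem φ_T0 : A.φ M.T0 = M.T0 := by
  have h0 : A.φ M.T0 ≠ 0 := A.ne_zero _ M.T0_ne_zero
  apply M.eq_T0_of_X_eq_zero h0
  rw [A.X_φ _ M.T0_ne_zero, M.X_T0, map_zero]

/-- `E₁` is stable under `φ` -/
theorem inE1_φ {P : E} (h : InE1 M v P) : InE1 M v (A.φ P) := by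
  by_cases hP0 : P = 0
  · left
    rw [hP0, map_zero]
  · rcases h with h | h
    · exact absurd h hP0
    · right
      rw [A.X_φ _ hP0]
      by_contra hcon
      push Not at hcon
      exact absurd ((hσ _).2 hcon) (not_le.2 h)

end

end Fermat.Agent.S05L
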