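import Fermat.Agent.S05L.CompMain
import Fermat.Agent.S05L.Congr
import Fermat.Agent.S05L.MultT

/-!
# S05 package, part 1e: the multiplicative case (statements frozen)

Setting: `v α = 1`, `v β < 1`, `β = b ^ p`, `v 2 = 1`, `v p = 1`, `s² = -α`;
`σ` inertial (`σ 𝒱 = 𝒱`, trivial on the residue field) with `σ b = b`.
-/

set_option autoImplicit false

namespace Fermat.Agent.S05L

variable {L : Type*} [Field L] {α β : L} {E : Type*} [AddCommGroup E] (M : LegModel L α β E)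
  {Γ₀ : Type*} [LinearOrderedCommGroupWithZero Γ₀] (v : Valuation L Γ₀)
  (hα : v α = 1) (hβ : v β < 1) (h2 : v (2 : L) = 1) (s : L) (hs : s ^ 2 = -α)
include hα hβ h2 hs

section
variable (σ : L →+* L) (hσ : ∀ x : L, v x ≤ 1 ↔ v (σ x) ≤ 1)
  (hσm : ∀ x : L, v x ≤ 1 → v (σ x - x) < 1) (A : LegAut M σ)
include hσ hσm

/-- `p`-torsion point of unit type (`v X = 1`): `φ P - P ∈ E₁` -/
theorem φ_sub_inE1_of_unit {P : E} (hP : P ≠ 0) (hX : v (M.X P) = 1) :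
    InE1 M v (A.φ P - P) := by
  have hY : v (M.Y P) ≤ 1 := v_Y_le_one M v hα.le hβ.le hP hX.le
  have hns := nonsing_of_unit M v hα hβ hP hX
  have hφ0 : A.φ P ≠ 0 := A.ne_zero P hP
  refine congr_sub_inE1 M v h2 hα.le hβ.le hP hφ0 hX.le ?_ ?_ hns
  · rw [A.X_φ P hP]
    exact hσm _ hX.le
  · rw [A.Y_φ P hP]
    exact hσm _ hY

/-- for `P ∈ E₀`: `φ P - P ∈ E₁` -/
theorem φ_sub_inE1_of_inE0 {P : E} (hP : InE0 M v P) : InE1 M v (A.φ P - P) := by
  have h20 : (2 : L) ≠ 0 := fun e => by rw [e, map_zero] at h2; exact zero_ne_one h2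
  by_cases hP0 : P = 0
  · left
    rw [hP0, map_zero, sub_zero]
  rcases hP with hP | hP
  · exact absurd hP hP0
  rcases hP.lt_or_eq with h | h
  · have h1 : InE1 M v P := Or.inr h
    exact inE1_sub M v hα.le hβ.le h20 (inE1_φ M v hα hβ h2 s hs σ hσ hσm A h1) h1
  · exact φ_sub_inE1_of_unit M v hα hβ h2 s hs σ hσ hσm A hP0 h.symm

/-- near₊ point with `σ X / X ∈ 1 + 𝔪`: `φ P` is near₊ and `φ P - P ∈ E₁` -/
theorem φ_sub_inE1_of_nearP {P : E} (hP : IsNearP M v s P)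
    (h : v (σ (M.X P) / M.X P - 1) < 1) : InE1 M v (A.φ P - P) := by
  have hP0 : P ≠ 0 := hP.1.1
  have hφ0 : A.φ P ≠ 0 := A.ne_zero P hP0
  have hXφ : M.X (A.φ P) = σ (M.X P) := A.X_φ P hP0
  have hYφ : M.Y (A.φ P) = σ (M.Y P) := A.Y_φ P hP0
  have hq : v (σ (M.X P) / M.X P) = 1 := by
    have e : σ (M.X P) / M.X P = 1 + (σ (M.X P) / M.X P - 1) := by ring
    rw [e]
    exact Valuation.map_one_add_of_lt v h
  have hvv : v (σ (M.X P)) = v (M.X P) := by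
    rw [map_div₀] at hq
    exact eq_of_div_eq_one hq
  have hτφ : M.τ (A.φ P) = σ (M.τ P) := by
    rw [LegModel.τ_def, hXφ, hYφ, LegModel.τ_def, map_div₀]
  have hτ1 : v (M.τ P) = 1 := (isNear_τ M v hα hβ h2 s hs hP.1).2
  have hφnear : IsNearP M v s (A.φ P) := by
    refine ⟨⟨hφ0, ?_, ?_⟩, ?_⟩
    · rw [hXφ, hvv]
      exact hP.1.2.1
    · rw [hXφ, hvv]
      exact hP.1.2.2
    · rw [hτφ]
      have e : σ (M.τ P) - s = (σ (M.τ P) - M.τ P) + (M.τ P - s) := by ring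
      rw [e]
      exact Valuation.map_add_lt v (hσm _ hτ1.le) hP.2
  refine nearP_sub_inE1 M v hα hβ h2 s hs hP hφnear ?_
  rw [hXφ]
  exact h

theorem φ_sub_inE1_of_nearM {P : E} (hP : IsNearM M v s P)
    (h : v (σ (M.X P) / M.X P - 1) < 1) : InE1 M v (A.φ P - P) := by
  have hP0 : P ≠ 0 := hP.1.1
  have hφ0 : A.φ P ≠ 0 := A.ne_zero P hP0
  have hXφ : M.X (A.φ P) = σ (M.X P) := A.X_φ P hP0
  have hYφ : M.Y (A.φ P) = σ (M.Y P) := A.Y_φ P hP0
  have hq : v (σ (M.X P) / M.X P) = 1 := by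
    have e : σ (M.X P) / M.X P = 1 + (σ (M.X P) / M.X P - 1) := by ring
    rw [e]
    exact Valuation.map_one_add_of_lt v h
  have hvv : v (σ (M.X P)) = v (M.X P) := by
    rw [map_div₀] at hq
    exact eq_of_div_eq_one hq
  have hτφ : M.τ (A.φ P) = σ (M.τ P) := by
    rw [LegModel.τ_def, hXφ, hYφ, LegModel.τ_def, map_div₀]
  have hτ1 : v (M.τ P) = 1 := (isNear_τ M v hα hβ h2 s hs hP.1).2
  have hφnear : IsNearM M v s (A.φ P) := by
    refine ⟨⟨hφ0, ?_, ?_⟩, ?_⟩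
    · rw [hXφ, hvv]
      exact hP.1.2.1
    · rw [hXφ, hvv]
      exact hP.1.2.2
    · rw [hτφ]
      have e : σ (M.τ P) + s = (σ (M.τ P) - M.τ P) + (M.τ P + s) := by ring
      rw [e]
      exact Valuation.map_add_lt v (hσm _ hτ1.le) hP.2
  refine nearM_sub_inE1 M v hα hβ h2 s hs hP hφnear ?_
  rw [hXφ]
  exact h

/-- far point `≠ T0`: `φ P - P ∈ E₁` -/
theorem φ_sub_inE1_of_far (hβ0 : β ≠ 0) {P : E} (hP : IsFar M v P) (hT : P ≠ M.T0) :
    InE1 M v (A.φ P - P) := by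
  have hR : InE0 M v (P + M.T0) := inE0_add_T0_of_isFar M v hα hβ h2 s hs hβ0 hP
  have h := φ_sub_inE1_of_inE0 M v hα hβ h2 s hs σ hσ hσm A hR
  have e : A.φ (P + M.T0) - (P + M.T0) = A.φ P - P := by
    rw [map_add, φ_T0 M v hα hβ h2 s hs σ hσ hσm A]
    abel
  rwa [e] at h

/-- a near point killed by `p`, with `β = b ^ p`: `X = b ^ (2 k) * u` with `u` a unit -/
theorem exists_unit_of_near_torsion (hβ0 : β ≠ 0) (p : ℕ) (hp : p.Prime) (b : L)
    (hb : β = b ^ p) {P : E} (hP : IsNear M v P) (hpP : p • P = 0) :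
    ∃ (k : ℤ) (u : L), v u = 1 ∧ M.X P = b ^ (2 * k) * u := by
  have hX1 : M.X P ≠ 0 := X_ne_zero_of_isNear M v hβ hP
  have hb0 : b ≠ 0 := by
    rintro rfl
    rw [zero_pow hp.ne_zero] at hb
    exact hβ0 hb
  have hvb0 : v b ≠ 0 := (Valuation.ne_zero_iff v).2 hb0
  have hcomp : comp M v s P ^ p = 1 := by
    rw [← comp_nsmul M v hα hβ h2 s hs hβ0 p P, hpP]
    exact comp_of_inE0 M v hα hβ h2 s hs (Or.inl rfl)
  have hcls : cls v β (M.X P) ^ p = 1 := by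
    rcases isNear_sign M v hα hβ h2 s hs hP with h | h
    · rwa [comp_of_isNearP M v hα hβ h2 s hs h] at hcomp
    · rw [comp_of_isNearM M v hα hβ h2 s hs h, inv_pow, inv_eq_one] at hcomp
      exact hcomp
  obtain ⟨k, hk⟩ := exists_zpow_of_cls_pow_eq_one v β hX1 hβ0 p hcls
  have hvb : v β = v b ^ p := by rw [hb, map_pow]
  have h1 : v (M.X P) ^ p = (v b ^ (2 * k)) ^ p := by
    rw [hk, hvb, ← zpow_natCast (v b) p, ← zpow_mul, ← zpow_natCast (v b ^ (2 * k)) p,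
      ← zpow_mul, mul_comm]
  have h3 : v (M.X P) = v b ^ (2 * k) := (pow_left_inj hp.ne_zero).mp h1
  refine ⟨k, M.X P / b ^ (2 * k), ?_, ?_⟩
  · rw [map_div₀, map_zpow₀, h3, div_self (zpow_ne_zero _ hvb0)]
  · rw [mul_div_cancel₀ _ (zpow_ne_zero _ hb0)]

/-- **1e** -/
theorem mult_main (hβ0 : β ≠ 0) (p : ℕ) (hp : p.Prime) (hp2 : p ≠ 2) (hpv : v (p : L) = 1)
    (b : L) (hb : β = b ^ p) (hσb : σ b = b) (P : E) (hP : p • P = 0) : A.φ P = P := by
  have h20 : (2 : L) ≠ 0 := fun e => by rw [e, map_zero] at h2; exact zero_ne_one h2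
  have hb0 : b ≠ 0 := by
    rintro rfl
    rw [zero_pow hp.ne_zero] at hb
    exact hβ0 hb
  have key : InE1 M v (A.φ P - P) := by
    rcases type_cases M v P with h | h | h
    · exact φ_sub_inE1_of_inE0 M v hα hβ h2 s hs σ hσ hσm A h
    · obtain ⟨k, u, hu, hX⟩ :=
        exists_unit_of_near_torsion M v hα hβ h2 s hs σ hσ hσm hβ0 p hp b hb h hP
      have hc : σ (b ^ (2 * k)) = b ^ (2 * k) := by rw [map_zpow₀, hσb]
      have hdiv := v_σ_div_sub_one v hα hβ h2 s hs σ hσ hσm hX hc (zpow_ne_zero _ hb0) hu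
      rcases isNear_sign M v hα hβ h2 s hs h with h' | h'
      · exact φ_sub_inE1_of_nearP M v hα hβ h2 s hs σ hσ hσm A h' hdiv
      · exact φ_sub_inE1_of_nearM M v hα hβ h2 s hs σ hσ hσm A h' hdiv
    · have hT : P ≠ M.T0 := by
        rintro rfl
        have h2T : (2 : ℕ) • M.T0 = 0 := by
          rw [two_nsmul]
          exact M.T0_add_T0
        obtain ⟨m, hm⟩ := hp.eq_two_or_odd'.resolve_left hp2
        have h3 : p • M.T0 = M.T0 := by
          rw [hm, add_nsmul, one_nsmul, mul_nsmul, h2T, smul_zero, zero_add]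
        rw [hP] at h3
        exact M.T0_ne_zero h3.symm
      exact φ_sub_inE1_of_far M v hα hβ h2 s hs σ hσ hσm A hβ0 h hT
  have hpk : p • (A.φ P - P) = 0 := by
    rw [smul_sub, ← map_nsmul, hP, map_zero, sub_zero]
  exact sub_eq_zero.1 (inE1_eq_zero_of_nsmul_eq_zero M v hα.le hβ.le h20 key p hpv hpk)

end

end Fermat.Agent.S05L
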