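import Fermat.Agent.S05L.Good
import Fermat.Agent.S05L.Mult

/-!
# S05 package: the abstract theorem for Legendre models (statement frozen)
-/

set_option autoImplicit false

namespace Fermat.Agent.S05L

variable {L : Type*} [Field L] {α β : L} {E : Type*} [AddCommGroup E] (M : LegModel L α β E)
  {Γ₀ : Type*} [LinearOrderedCommGroupWithZero Γ₀] (v : Valuation L Γ₀)

/-- inertia acts trivially on the `p`-torsion of a Legendre model with good or
"`p`-th power multiplicative" reduction. -/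
theorem model_main (h2 : v (2 : L) = 1) (hα : v α = 1) (hαβ : v (α + β) = 1) (hβ : v β ≤ 1)
    (hβ0 : β ≠ 0) (p : ℕ) (hp : p.Prime) (hp2 : p ≠ 2) (hpv : v (p : L) = 1)
    (b : L) (hb : v β = 1 ∨ β = b ^ p) (s : L) (hs : s ^ 2 = -α)
    (σ : L →+* L) (hσ : ∀ x : L, v x ≤ 1 ↔ v (σ x) ≤ 1)
    (hσm : ∀ x : L, v x ≤ 1 → v (σ x - x) < 1) (hσb : σ b = b)
    (A : LegAut M σ) (P : E) (hP : p • P = 0) : A.φ P = P := by
  rcases hβ.lt_or_eq with h | h
  · have hb' : β = b ^ p := by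
      rcases hb with hb | hb
      · exact absurd hb h.ne
      · exact hb
    exact mult_main M v hα h h2 s hs σ hσ hσm A hβ0 p hp hp2 hpv b hb' hσb P hP
  · exact good_main M v h2 hα h hαβ p hpv σ hσ hσm A P hP

/-- **Frozen interface with the Mathlib-facing side** (`Coords.lean`, `Frey.lean`). -/
theorem LegModel.unramified {L : Type*} [Field L] {Γ₀ : Type*} [LinearOrderedCommGroupWithZero Γ₀]
    (v : Valuation L Γ₀) {α β : L} {E : Type*} [AddCommGroup E] (M : LegModel L α β E)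
    {σ : L →+* L} (Φ : LegAut M σ) {p : ℕ} (hp : p.Prime) (hp2 : p ≠ 2)
    (h2 : v 2 = 1) (hpv : v (p : L) = 1) (hα : v α = 1) (hαβ : v (α + β) = 1) (hβ0 : β ≠ 0)
    (hβ : v β = 1 ∨ (v β < 1 ∧ ∃ b : L, σ b = b ∧ β = b ^ p))
    (hs : ∃ s : L, s ^ 2 = -α)
    (hσv : ∀ x : L, v (σ x) ≤ 1 ↔ v x ≤ 1)
    (hσm : ∀ x : L, v x ≤ 1 → v (σ x - x) < 1)
    (P : E) (hP : p • P = 0) : Φ.φ P = P := by
  obtain ⟨s, hs⟩ := hs
  have hσ : ∀ x : L, v x ≤ 1 ↔ v (σ x) ≤ 1 := fun x => (hσv x).symm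
  rcases hβ with h | ⟨h, b, hσb, hb⟩
  · exact model_main M v h2 hα hαβ h.le hβ0 p hp hp2 hpv 1 (Or.inl h) s hs σ hσ hσm
      (map_one σ) Φ P hP
  · exact model_main M v h2 hα hαβ h.le hβ0 p hp hp2 hpv b (Or.inr hb) s hs σ hσ hσm
      hσb Φ P hP

end Fermat.Agent.S05L
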