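import Mathlib

/-!
# S05 package: abstract Legendre models (interface file; statements frozen)

A `LegModel L α β E` is an abelian group `E` ("the points of `Y² = X(X-α)(X+β)` over `L`")
with coordinate functions `X Y : E → L` (junk at `0`) obeying the chord–tangent formulas
in simplified Weierstrass form.  `T0` is the 2-torsion point `(0,0)`.
All later files of the package only use this interface (never Mathlib's elliptic curves).
-/

set_option autoImplicit false

namespace Fermat.Agent.S05L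

/-- An abelian group with Legendre coordinates; see the module docstring. -/
structure LegModel (L : Type*) [Field L] (α β : L) (E : Type*) [AddCommGroup E] where
  X : E → L
  Y : E → L
  eqn : ∀ P : E, P ≠ 0 → Y P ^ 2 = X P * (X P - α) * (X P + β)
  ext : ∀ P Q : E, P ≠ 0 → Q ≠ 0 → X P = X Q → Y P = Y Q → P = Q
  X_neg : ∀ P : E, P ≠ 0 → X (-P) = X P
  Y_neg : ∀ P : E, P ≠ 0 → Y (-P) = -Y P
  X_add : ∀ P Q : E, P ≠ 0 → Q ≠ 0 → X P ≠ X Q →
    X (P + Q) = ((Y P - Y Q) / (X P - X Q)) ^ 2 - (β - α) - X P - X Q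
  Y_add : ∀ P Q : E, P ≠ 0 → Q ≠ 0 → X P ≠ X Q →
    Y (P + Q) = -((Y P - Y Q) / (X P - X Q) * (X (P + Q) - X P) + Y P)
  X_dbl : ∀ P : E, P ≠ 0 → Y P ≠ 0 →
    X (P + P) = ((3 * X P ^ 2 + 2 * (β - α) * X P - α * β) / (2 * Y P)) ^ 2 - (β - α) - 2 * X P
  Y_dbl : ∀ P : E, P ≠ 0 → Y P ≠ 0 →
    Y (P + P) = -((3 * X P ^ 2 + 2 * (β - α) * X P - α * β) / (2 * Y P) * (X (P + P) - X P) + Y P)
  T0 : E
  T0_ne_zero : T0 ≠ 0
  X_T0 : X T0 = 0
  Y_T0 : Y T0 = 0

/-- A group endomorphism of a Legendre model acting on coordinates through the ring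
homomorphism `σ` (the Galois action). -/
structure LegAut {L : Type*} [Field L] {α β : L} {E : Type*} [AddCommGroup E]
    (M : LegModel L α β E) (σ : L →+* L) where
  φ : E →+ E
  ne_zero : ∀ P : E, P ≠ 0 → φ P ≠ 0
  X_φ : ∀ P : E, P ≠ 0 → M.X (φ P) = σ (M.X P)
  Y_φ : ∀ P : E, P ≠ 0 → M.Y (φ P) = σ (M.Y P)

namespace LegModel

variable {L : Type*} [Field L] {α β : L} {E : Type*} [AddCommGroup E] (M : LegModel L α β E)

/-- `τ = Y / X` -/
noncomputable def τ (P : E) : L := M.Y P / M.X P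

theorem τ_def (P : E) : M.τ P = M.Y P / M.X P := rfl

end LegModel

end Fermat.Agent.S05L
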