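import Mathlib
import Fermat.Agent.S05L.Model

/-!
# S05 package: Mathlib's Weierstrass points as a Legendre model

For a Weierstrass curve `W` over a field `L` of the shape
`y² + xy = x³ + a₂x² + a₄x + a₆` with
`4a₂ = β - α - 3e - 1`, `16a₄ = 3e² - 2e(β-α) - αβ`, `64a₆ = -e(e-β)(e+α)`,
the functions `X = 4x - e`, `Y = 8y + 4x` satisfy `Y² = X(X-α)(X+β)` and turn
`W.Point` into a `LegModel L α β`.
-/

set_option autoImplicit false

namespace Fermat.Agent.S05L

open WeierstrassCurve WeierstrassCurve.Affine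

section coords

variable {L : Type*} [Field L]

/-- The hypotheses making `W` a Legendre model with parameters `e, α, β`. -/
structure IsLeg (W : Affine L) (e α β : L) : Prop where
  two_ne : (2 : L) ≠ 0
  ha₁ : W.a₁ = 1
  ha₃ : W.a₃ = 0
  ha₂ : 4 * W.a₂ = β - α - 3 * e - 1
  ha₄ : 16 * W.a₄ = 3 * e ^ 2 - 2 * e * (β - α) - α * β
  ha₆ : 64 * W.a₆ = -(e * (e - β) * (e + α))
  hαβ : α * β ≠ 0

/-- The `X`-coordinate `4x - e` (junk value `0` at infinity). -/
def ptX (W : Affine L) (e : L) : W.Point → L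
  | .zero => 0
  | .some x _ _ => 4 * x - e

/-- The `Y`-coordinate `8y + 4x` (junk value `0` at infinity). -/
def ptY (W : Affine L) : W.Point → L
  | .zero => 0
  | .some x y _ => 8 * y + 4 * x

@[simp] lemma ptX_some (W : Affine L) (e : L) {x y : L} (h : W.Nonsingular x y) :
    ptX W e (.some x y h) = 4 * x - e := rfl

@[simp] lemma ptY_some (W : Affine L) {x y : L} (h : W.Nonsingular x y) :
    ptY W (.some x y h) = 8 * y + 4 * x := rfl

variable {W : Affine L} {e α β : L}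

lemma IsLeg.four_ne (h : IsLeg W e α β) : (4 : L) ≠ 0 := by
  have h2 := h.two_ne
  have : (4 : L) = 2 * 2 := by norm_num
  rw [this]; exact mul_ne_zero h2 h2

lemma IsLeg.eight_ne (h : IsLeg W e α β) : (8 : L) ≠ 0 := by
  have h2 := h.two_ne
  have : (8 : L) = 2 * 2 * 2 := by norm_num
  rw [this]; exact mul_ne_zero (mul_ne_zero h2 h2) h2

/-- The Legendre equation in the coordinates `X, Y`. -/
lemma IsLeg.eqn (h : IsLeg W e α β) {x y : L} (hxy : W.Equation x y) :
    (8 * y + 4 * x) ^ 2 = (4 * x - e) * (4 * x - e - α) * (4 * x - e + β) := by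
  have E := (W.equation_iff x y).1 hxy
  rw [h.ha₁, h.ha₃] at E
  linear_combination 64 * E + 16 * x ^ 2 * h.ha₂ + 4 * x * h.ha₄ + h.ha₆

/-- auxiliary: a point with `X = 0`, `Y = 0` is nonsingular. -/
lemma IsLeg.nonsingular_of_X_Y_zero (h : IsLeg W e α β) {x y : L} (hx : 4 * x = e)
    (hy : 8 * y = -e) : W.Nonsingular x y := by
  have h4 := h.four_ne
  have h8 := h.eight_ne
  have h2 := h.two_ne
  rw [W.nonsingular_iff, W.equation_iff, h.ha₁, h.ha₃]
  refine ⟨?_, Or.inl ?_⟩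
  · have h64 : (64 : L) ≠ 0 := by
      have : (64 : L) = 8 * 8 := by norm_num
      rw [this]; exact mul_ne_zero h8 h8
    apply mul_left_cancel₀ h64
    subst hx
    linear_combination (8 * y + 4 * x) * hy - 16 * x ^ 2 * h.ha₂ - 4 * x * h.ha₄ - h.ha₆
  · intro H
    apply h.hαβ
    subst hx
    linear_combination (16 : L) * H - 2 * hy + 8 * x * h.ha₂ + h.ha₄

/-- The point `T₀ = (e/4, -e/8)`, i.e. `(X, Y) = (0, 0)`, is a nonsingular point. -/
lemma IsLeg.nonsingular_T0 (h : IsLeg W e α β) : W.Nonsingular (e / 4) (-e / 8) :=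
  h.nonsingular_of_X_Y_zero (mul_div_cancel₀ _ h.four_ne) (mul_div_cancel₀ _ h.eight_ne)

/-- `X`-coordinate of a sum/double in terms of `Λ = 2ℓ + 1`. -/
lemma IsLeg.addX_coord (h : IsLeg W e α β) (x₁ x₂ ℓ : L) :
    4 * W.addX x₁ x₂ ℓ - e
      = (2 * ℓ + 1) ^ 2 - (β - α) - (4 * x₁ - e) - (4 * x₂ - e) := by
  simp only [addX, h.ha₁]
  linear_combination (-1 : L) * h.ha₂

/-- `Y`-coordinate of a sum/double in terms of `Λ = 2ℓ + 1`. -/
lemma IsLeg.addY_coord (h : IsLeg W e α β) (x₁ x₂ y₁ ℓ : L) :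
    8 * W.addY x₁ x₂ y₁ ℓ + 4 * W.addX x₁ x₂ ℓ
      = -((2 * ℓ + 1) * ((4 * W.addX x₁ x₂ ℓ - e) - (4 * x₁ - e)) + (8 * y₁ + 4 * x₁)) := by
  simp only [addY, negY, negAddY, h.ha₁, h.ha₃]
  ring

lemma IsLeg.negY_eq (h : IsLeg W e α β) (x y : L) : W.negY x y = -y - x := by
  simp only [negY, h.ha₁, h.ha₃]; ring

lemma IsLeg.ne_negY_of_Y_ne (h : IsLeg W e α β) {x y : L} (hY : 8 * y + 4 * x ≠ 0) :
    y ≠ W.negY x y := by
  rw [h.negY_eq]
  intro H
  apply hY
  linear_combination (4 : L) * H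

end coords

section slope

variable {L : Type*} [Field L] [DecidableEq L] {W : Affine L} {e α β : L}

lemma IsLeg.slope_chord (h : IsLeg W e α β) {x₁ x₂ : L} (y₁ y₂ : L) (hx : x₁ ≠ x₂) :
    2 * W.slope x₁ x₂ y₁ y₂ + 1
      = ((8 * y₁ + 4 * x₁) - (8 * y₂ + 4 * x₂)) / ((4 * x₁ - e) - (4 * x₂ - e)) := by
  have h4 := h.four_ne
  have hd : x₁ - x₂ ≠ 0 := sub_ne_zero.2 hx
  have hd' : (4 * x₁ - e) - (4 * x₂ - e) ≠ 0 := by
    have : (4 * x₁ - e) - (4 * x₂ - e) = 4 * (x₁ - x₂) := by ring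
    rw [this]; exact mul_ne_zero h4 hd
  rw [slope_of_X_ne hx, eq_div_iff hd']
  field_simp
  ring

lemma IsLeg.slope_tangent (h : IsLeg W e α β) {x y : L} (hY : 8 * y + 4 * x ≠ 0) :
    2 * W.slope x x y y + 1
      = (3 * (4 * x - e) ^ 2 + 2 * (β - α) * (4 * x - e) - α * β) / (2 * (8 * y + 4 * x)) := by
  have h2 := h.two_ne
  have hy := h.ne_negY_of_Y_ne hY
  have hd : y - W.negY x y ≠ 0 := sub_ne_zero.2 hy
  rw [slope_of_Y_ne rfl hy, eq_div_iff (mul_ne_zero h2 hY)]
  have hd2 : y - W.negY x y = 2 * y + x := by rw [h.negY_eq]; ring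
  rw [hd2] at hd ⊢
  rw [h.ha₁]
  have key : (2 * ((3 * x ^ 2 + 2 * W.a₂ * x + W.a₄ - 1 * y) / (2 * y + x)) + 1)
      * (2 * (8 * y + 4 * x))
      = 16 * (3 * x ^ 2 + 2 * W.a₂ * x + W.a₄ - 1 * y) + 8 * (2 * y + x) := by
    field_simp
    ring
  rw [key]
  linear_combination (8 * x : L) * h.ha₂ + h.ha₄

/-- Mathlib's points of `W` form a Legendre model in the coordinates
`X = 4x - e`, `Y = 8y + 4x`. -/
noncomputable def legModel (W : Affine L) {e α β : L} (h : IsLeg W e α β) :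
    LegModel L α β W.Point where
  X := ptX W e
  Y := ptY W
  eqn := by
    rintro (_ | ⟨x, y, hxy⟩) hP
    · exact absurd rfl hP
    · simp only [ptX_some, ptY_some]
      exact h.eqn hxy.1
  ext := by
    rintro (_ | ⟨x₁, y₁, h₁⟩) (_ | ⟨x₂, y₂, h₂⟩) hP hQ hX hY
    · exact absurd rfl hP
    · exact absurd rfl hP
    · exact absurd rfl hQ
    · simp only [ptX_some, ptY_some] at hX hY
      have hx : x₁ = x₂ := mul_left_cancel₀ h.four_ne (by linear_combination hX)
      subst hx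
      have hy : y₁ = y₂ := mul_left_cancel₀ h.eight_ne (by linear_combination hY)
      subst hy
      rfl
  X_neg := by
    rintro (_ | ⟨x, y, hxy⟩) hP
    · exact absurd rfl hP
    · rw [Point.neg_some]; rfl
  Y_neg := by
    rintro (_ | ⟨x, y, hxy⟩) hP
    · exact absurd rfl hP
    · rw [Point.neg_some, ptY_some, ptY_some, h.negY_eq]; ring
  X_add := by
    rintro (_ | ⟨x₁, y₁, h₁⟩) (_ | ⟨x₂, y₂, h₂⟩) hP hQ hX
    · exact absurd rfl hP
    · exact absurd rfl hP
    · exact absurd rfl hQ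
    · simp only [ptX_some, ptY_some] at hX ⊢
      have hx : x₁ ≠ x₂ := fun H => hX (by rw [H])
      rw [Point.add_of_X_ne hx, ptX_some, h.addX_coord, h.slope_chord y₁ y₂ hx]
  Y_add := by
    rintro (_ | ⟨x₁, y₁, h₁⟩) (_ | ⟨x₂, y₂, h₂⟩) hP hQ hX
    · exact absurd rfl hP
    · exact absurd rfl hP
    · exact absurd rfl hQ
    · simp only [ptX_some, ptY_some] at hX ⊢
      have hx : x₁ ≠ x₂ := fun H => hX (by rw [H])
      rw [Point.add_of_X_ne hx, ptX_some, ptY_some, h.addY_coord, h.slope_chord y₁ y₂ hx]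
  X_dbl := by
    rintro (_ | ⟨x, y, hxy⟩) hP hY
    · exact absurd rfl hP
    · simp only [ptX_some, ptY_some] at hY ⊢
      rw [Point.add_self_of_Y_ne (h.ne_negY_of_Y_ne hY), ptX_some, h.addX_coord,
        h.slope_tangent hY]
      ring
  Y_dbl := by
    rintro (_ | ⟨x, y, hxy⟩) hP hY
    · exact absurd rfl hP
    · simp only [ptX_some, ptY_some] at hY ⊢
      rw [Point.add_self_of_Y_ne (h.ne_negY_of_Y_ne hY), ptX_some, ptY_some, h.addY_coord,
        h.slope_tangent hY]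
  T0 := .some (e / 4) (-e / 8) h.nonsingular_T0
  T0_ne_zero := Point.some_ne_zero _
  X_T0 := by
    rw [ptX_some, mul_div_cancel₀ _ h.four_ne, sub_self]
  Y_T0 := by
    rw [ptY_some, mul_div_cancel₀ _ h.eight_ne, mul_div_cancel₀ _ h.four_ne]; ring

@[simp] lemma legModel_X (W : Affine L) {e α β : L} (h : IsLeg W e α β) :
    (legModel W h).X = ptX W e := rfl

@[simp] lemma legModel_Y (W : Affine L) {e α β : L} (h : IsLeg W e α β) :
    (legModel W h).Y = ptY W := rfl

end slope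



section aut

variable {R S K : Type*} [CommRing R] [CommRing S] [Field K] [DecidableEq K]
  [Algebra R S] [Algebra R K] [Algebra S K] [IsScalarTower R S K]

/-- The Galois action `Point.map σ` as an automorphism of the Legendre model. -/
noncomputable def legAut (W' : Affine R) {e α β : K} (h : IsLeg (W'⁄K) e α β)
    (σ : K ≃ₐ[S] K) (he : σ e = e) :
    LegAut (legModel (W'⁄K) h) (σ : K →+* K) where
  φ := Point.map (W' := W') σ.toAlgHom
  ne_zero := by
    rintro (_ | ⟨x, y, hxy⟩) hP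
    · exact absurd rfl hP
    · rw [Point.map_some]; exact Point.some_ne_zero _
  X_φ := by
    rintro (_ | ⟨x, y, hxy⟩) hP
    · exact absurd rfl hP
    · rw [Point.map_some]
      simp only [legModel_X, ptX_some, map_sub, map_mul, map_ofNat, RingHom.coe_coe]
      rw [he]; rfl
  Y_φ := by
    rintro (_ | ⟨x, y, hxy⟩) hP
    · exact absurd rfl hP
    · rw [Point.map_some]
      simp only [legModel_Y, ptY_some, map_add, map_mul, map_ofNat, RingHom.coe_coe]
      rfl

@[simp] lemma legAut_φ (W' : Affine R) {e α β : K} (h : IsLeg (W'⁄K) e α β)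
    (σ : K ≃ₐ[S] K) (he : σ e = e) (P : (W'⁄K).Point) :
    (legAut W' h σ he).φ P = Point.map (W' := W') σ.toAlgHom P := rfl

end aut

end Fermat.Agent.S05L
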