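import Mathlib
import Fermat.Prelude.Def_FLTPrelim_Ramification
import Fermat.Agent.S05L.Coords
import Fermat.Agent.S05L.Abstract

/-!
# S05 package: Frey plumbing

The Frey curve `y² + xy = x³ + ((B-1-A)/4)x² - (AB/16)x` (`A = a^p`, `B = b^p`, `A + B = C = c^p`)
is a Legendre model for the three parameter choices `(e, α, β) = (0, A, B), (0, -B, -A), (A, -A, C)`.
Together with elementary facts on the inertia group and on integers in a valuation ring above `q`,
the abstract theorem `LegModel.unramified` gives the statement S05.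
-/

set_option autoImplicit false

open scoped Pointwise
open WeierstrassCurve WeierstrassCurve.Affine

namespace Fermat.Agent.S05L

section inertia

variable {F K : Type*} [Field F] [Field K] [Algebra F K] (A : ValuationSubring K)

lemma mem_iff_of_mem_decomposition {σ : K ≃ₐ[F] K} (hσ : σ ∈ A.decompositionSubgroup F) (x : K) :
    σ x ∈ A ↔ x ∈ A := by
  have h : σ • A = A := hσ
  constructor
  · intro hx
    rw [← h] at hx
    exact ValuationSubring.smul_mem_pointwise_smul_iff.1 hx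
  · intro hx
    rw [← h]
    exact ValuationSubring.smul_mem_pointwise_smul σ x A hx

lemma mem_decomposition_of_mem_inertiaIn {σ : K ≃ₐ[F] K} (hσ : σ ∈ A.inertiaSubgroupIn F) :
    σ ∈ A.decompositionSubgroup F := by
  obtain ⟨τ, -, rfl⟩ := hσ
  exact τ.2

lemma sub_mem_nonunits_of_mem_inertiaIn {σ : K ≃ₐ[F] K} (hσ : σ ∈ A.inertiaSubgroupIn F)
    {x : K} (hx : x ∈ A) : σ x - x ∈ A.nonunits := by
  obtain ⟨τ, hτ, rfl⟩ := hσ
  have h1 : MulSemiringAction.toRingAut (A.decompositionSubgroup F)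
      (IsLocalRing.ResidueField A) τ = 1 := hτ
  have h2 : τ • (IsLocalRing.residue A ⟨x, hx⟩) = IsLocalRing.residue A ⟨x, hx⟩ := by
    have := congrArg (fun f => f (IsLocalRing.residue A ⟨x, hx⟩)) h1
    simpa using this
  rw [← IsLocalRing.ResidueField.residue_smul] at h2
  have h3 : (τ • (⟨x, hx⟩ : A)) - ⟨x, hx⟩ ∈ IsLocalRing.maximalIdeal A := by
    rw [← Ideal.Quotient.eq]
    exact h2
  have h4 := (ValuationSubring.coe_mem_nonunits_iff (A := A)).2 h3
  exact h4

end inertia

section ints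

variable {K : Type*} [Field K] (A : ValuationSubring K) {q : ℕ}

lemma valuation_intCast_le_one (n : ℤ) : A.valuation (n : K) ≤ 1 :=
  (A.valuation_le_one_iff _).2 (intCast_mem A n)

lemma valuation_intCast_lt_one (hqA : (q : K) ∈ A.nonunits) {n : ℤ} (hn : (q : ℤ) ∣ n) :
    A.valuation (n : K) < 1 := by
  obtain ⟨m, rfl⟩ := hn
  have h1 : A.valuation (q : K) < 1 := hqA
  have h2 := valuation_intCast_le_one A m
  push_cast
  rw [map_mul]
  calc A.valuation (q : K) * A.valuation (m : K) ≤ A.valuation (q : K) * 1 := by gcongr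
    _ < 1 := by rwa [mul_one]

lemma valuation_intCast_eq_one (hq : q.Prime) (hqA : (q : K) ∈ A.nonunits) {n : ℤ}
    (hn : ¬ (q : ℤ) ∣ n) : A.valuation (n : K) = 1 := by
  by_contra hne
  have hlt : A.valuation (n : K) < 1 := lt_of_le_of_ne (valuation_intCast_le_one A n) hne
  have hcop : IsCoprime n (q : ℤ) := by
    have hqp : Prime (q : ℤ) := Nat.prime_iff_prime_int.1 hq
    exact ((Prime.coprime_iff_not_dvd hqp).2 hn).symm
  obtain ⟨u, w, huw⟩ := hcop
  have h1 : A.valuation ((u * n : ℤ) : K) < 1 := by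
    push_cast; rw [map_mul]
    calc A.valuation (u : K) * A.valuation (n : K) ≤ 1 * A.valuation (n : K) := by
          gcongr; exact valuation_intCast_le_one A u
      _ < 1 := by rwa [one_mul]
  have h2 : A.valuation ((w * (q : ℤ) : ℤ) : K) < 1 :=
    valuation_intCast_lt_one A hqA (Dvd.intro_left w rfl)
  have h3 : A.valuation (((u * n + w * (q : ℤ) : ℤ)) : K) < 1 := by
    rw [Int.cast_add]
    exact Valuation.map_add_lt _ h1 h2
  rw [huw] at h3
  simp at h3

end ints

section frey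

variable (P : FreyPackage) {K : Type*} [Field K] [CharZero K] [Algebra ℚ K]

/-- The Frey curve over `K` is a Legendre model for suitable `(e, α, β)`. -/
lemma frey_isLeg {e α β : K}
    (h2 : β - α - 3 * e = (P.b : K) ^ P.p - (P.a : K) ^ P.p)
    (h4 : 3 * e ^ 2 - 2 * e * (β - α) - α * β = -((P.a : K) ^ P.p * (P.b : K) ^ P.p))
    (h6 : e * (e - β) * (e + α) = 0) (hαβ : α * β ≠ 0) :
    IsLeg (P.freyCurve⁄K) e α β where
  two_ne := two_ne_zero
  ha₁ := by simp [WeierstrassCurve.baseChange, FreyPackage.freyCurve]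
  ha₃ := by simp [WeierstrassCurve.baseChange, FreyPackage.freyCurve]
  ha₂ := by
    simp only [WeierstrassCurve.baseChange, FreyPackage.freyCurve, WeierstrassCurve.map_a₂]
    simp only [map_div₀, map_sub, map_pow, map_intCast, map_one, map_ofNat]
    linear_combination (-1 : K) * h2
  ha₄ := by
    simp only [WeierstrassCurve.baseChange, FreyPackage.freyCurve, WeierstrassCurve.map_a₄]
    simp only [map_div₀, map_mul, map_neg, map_pow, map_intCast, map_ofNat]
    linear_combination (-1 : K) * h4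
  ha₆ := by
    simp only [WeierstrassCurve.baseChange, FreyPackage.freyCurve, WeierstrassCurve.map_a₆]
    simp only [map_zero, mul_zero]
    linear_combination h6
  hαβ := hαβ

end frey

section main

variable (P : FreyPackage) {K : Type*} [Field K] [CharZero K] [Algebra ℚ K]

lemma not_dvd_of_gcd_eq_one {q : ℕ} (hq : q.Prime) {m n : ℤ} (h : gcd m n = 1)
    (hm : (q : ℤ) ∣ m) : ¬ (q : ℤ) ∣ n := by
  intro hn
  have h1 : (q : ℤ) ∣ gcd m n := dvd_gcd hm hn
  rw [h] at h1
  have h2 : (q : ℤ) ∣ ((1 : ℕ) : ℤ) := by simpa using h1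
  exact hq.not_dvd_one (Int.natCast_dvd_natCast.1 h2)

/-- For every prime `q` there is a Legendre parametrisation of the Frey curve which is of good
type or of "`p`-th power multiplicative" type at `q`. -/
lemma exists_param {q : ℕ} (hq : q.Prime) (A : ValuationSubring K) (hA : (q : K) ∈ A.nonunits)
    (σ : K ≃ₐ[ℚ] K) :
    ∃ e α β : K, IsLeg (P.freyCurve⁄K) e α β ∧ σ e = e ∧
      A.valuation α = 1 ∧ A.valuation (α + β) = 1 ∧ β ≠ 0 ∧
      (A.valuation β = 1 ∨ (A.valuation β < 1 ∧ ∃ b : K, σ b = b ∧ β = b ^ P.p)) := by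
  have hF : (P.a : K) ^ P.p + (P.b : K) ^ P.p = (P.c : K) ^ P.p := by
    exact_mod_cast congrArg (Int.cast : ℤ → K) P.hFLT
  have ha0 : (P.a : K) ≠ 0 := by exact_mod_cast P.ha0
  have hb0 : (P.b : K) ≠ 0 := by exact_mod_cast P.hb0
  have hc0 : (P.c : K) ≠ 0 := by exact_mod_cast P.hc0
  have hp0 : P.p ≠ 0 := P.hp0
  have unit : ∀ n : ℤ, ¬ (q : ℤ) ∣ n → A.valuation ((n : K) ^ P.p) = 1 := fun n hn => by
    rw [map_pow, valuation_intCast_eq_one A hq hA hn, one_pow]
  have nonunit : ∀ n : ℤ, (q : ℤ) ∣ n → A.valuation ((n : K) ^ P.p) < 1 := fun n hn => by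
    rw [map_pow]
    exact pow_lt_one₀ zero_le (valuation_intCast_lt_one A hA hn) hp0
  have σint : ∀ n : ℤ, σ (n : K) = n := fun n => map_intCast σ n
  have σpow : ∀ n : ℤ, σ ((n : K) ^ P.p) = (n : K) ^ P.p := fun n => by
    rw [map_pow, σint]
  by_cases hb : (q : ℤ) ∣ P.b
  · have hna : ¬ (q : ℤ) ∣ P.a :=
      not_dvd_of_gcd_eq_one hq (by rw [gcd_comm]; exact P.hgcdab) hb
    have hnc : ¬ (q : ℤ) ∣ P.c := not_dvd_of_gcd_eq_one hq P.hgcdbc hb
    refine ⟨0, (P.a : K) ^ P.p, (P.b : K) ^ P.p, frey_isLeg P (by ring) (by ring) (by ring)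
      (mul_ne_zero (pow_ne_zero _ ha0) (pow_ne_zero _ hb0)), map_zero σ, unit _ hna, ?_,
      pow_ne_zero _ hb0, Or.inr ⟨nonunit _ hb, (P.b : K), σint _, rfl⟩⟩
    rw [hF]; exact unit _ hnc
  by_cases ha : (q : ℤ) ∣ P.a
  · have hnc : ¬ (q : ℤ) ∣ P.c := not_dvd_of_gcd_eq_one hq P.hgcdac ha
    refine ⟨0, -(P.b : K) ^ P.p, -(P.a : K) ^ P.p, frey_isLeg P (by ring) (by ring) (by ring)
      (mul_ne_zero (neg_ne_zero.2 (pow_ne_zero _ hb0)) (neg_ne_zero.2 (pow_ne_zero _ ha0))),
      map_zero σ, ?_, ?_, neg_ne_zero.2 (pow_ne_zero _ ha0),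
      Or.inr ⟨?_, -(P.a : K), ?_, ?_⟩⟩
    · rw [Valuation.map_neg]; exact unit _ hb
    · have : -(P.b : K) ^ P.p + -(P.a : K) ^ P.p = -((P.c : K) ^ P.p) := by
        rw [← hF]; ring
      rw [this, Valuation.map_neg]; exact unit _ hnc
    · rw [Valuation.map_neg]; exact nonunit _ ha
    · rw [map_neg, σint]
    · rw [Odd.neg_pow P.hp_odd]
  by_cases hc : (q : ℤ) ∣ P.c
  · refine ⟨(P.a : K) ^ P.p, -(P.a : K) ^ P.p, (P.c : K) ^ P.p, frey_isLeg P ?_ ?_ (by ring)
      (mul_ne_zero (neg_ne_zero.2 (pow_ne_zero _ ha0)) (pow_ne_zero _ hc0)), σpow _, ?_, ?_,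
      pow_ne_zero _ hc0, Or.inr ⟨nonunit _ hc, (P.c : K), σint _, rfl⟩⟩
    · rw [← hF]; ring
    · rw [← hF]; ring
    · rw [Valuation.map_neg]; exact unit _ ha
    · have : -(P.a : K) ^ P.p + (P.c : K) ^ P.p = (P.b : K) ^ P.p := by
        rw [← hF]; ring
      rw [this]; exact unit _ hb
  · refine ⟨0, (P.a : K) ^ P.p, (P.b : K) ^ P.p, frey_isLeg P (by ring) (by ring) (by ring)
      (mul_ne_zero (pow_ne_zero _ ha0) (pow_ne_zero _ hb0)), map_zero σ, unit _ ha, ?_,
      pow_ne_zero _ hb0, Or.inl (unit _ hb)⟩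
    rw [hF]; exact unit _ hc

end main

open WeierstrassCurve.Affine.Point in
/-- **S05**: the mod `p` representation of the Frey curve is unramified at every prime
`q ≠ 2, p`. -/
theorem frey_unramified (P : FreyPackage) {q : ℕ} (hq : q.Prime) (hq2 : q ≠ 2)
    (hqp : q ≠ P.p) : P.GaloisRepUnramifiedAt q := by
  intro A hA σ hσ x
  have hdec := mem_decomposition_of_mem_inertiaIn A hσ
  obtain ⟨e, α, β, hleg, he, hα, hαβ, hβ0, hβ⟩ := exists_param P hq A hA σ
  have h2 : A.valuation (2 : AlgebraicClosure ℚ) = 1 := by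
    have := valuation_intCast_eq_one A hq hA (n := 2) (by
      intro h
      have h' : q ∣ 2 := by exact_mod_cast h
      exact hq2 ((Nat.prime_dvd_prime_iff_eq hq Nat.prime_two).1 h'))
    simpa using this
  have hpv : A.valuation ((P.p : ℕ) : AlgebraicClosure ℚ) = 1 := by
    have := valuation_intCast_eq_one A hq hA (n := (P.p : ℤ)) (by
      intro h
      have h' : q ∣ P.p := by exact_mod_cast h
      exact hqp ((Nat.prime_dvd_prime_iff_eq hq P.pp).1 h'))
    simpa using this
  have hs : ∃ s : AlgebraicClosure ℚ, s ^ 2 = -α :=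
    IsAlgClosed.exists_pow_nat_eq (-α) (by norm_num)
  have hσv : ∀ z, A.valuation ((σ : AlgebraicClosure ℚ →+* AlgebraicClosure ℚ) z) ≤ 1 ↔
      A.valuation z ≤ 1 := fun z => by
    rw [A.valuation_le_one_iff, A.valuation_le_one_iff]
    exact mem_iff_of_mem_decomposition A hdec z
  have hσm : ∀ z, A.valuation z ≤ 1 →
      A.valuation ((σ : AlgebraicClosure ℚ →+* AlgebraicClosure ℚ) z - z) < 1 := fun z hz =>
    sub_mem_nonunits_of_mem_inertiaIn A hσ ((A.valuation_le_one_iff z).1 hz)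
  have hx : P.p • x.1 = 0 := by
    have hx2 := x.2
    rw [Submodule.mem_torsionBy_iff] at hx2
    rw [← natCast_zsmul]
    exact hx2
  have key := LegModel.unramified A.valuation (legModel _ hleg)
    (legAut P.freyCurve hleg σ he) P.pp (by have := P.hp5; omega) h2 hpv hα hαβ hβ0 hβ hs
    hσv hσm x.1 hx
  exact Subtype.ext key

end Fermat.Agent.S05L
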