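import Fermat.Agent.S05L.Model

/-!
# S05 package: basic consequences of the `LegModel` fields, translation by `T0`

(statements frozen)
-/

set_option autoImplicit false

namespace Fermat.Agent.S05L

namespace LegModel

variable {L : Type*} [Field L] {α β : L} {E : Type*} [AddCommGroup E] (M : LegModel L α β E)

/-! ### basic consequences of the structure fields -/

theorem neg_ne_zero' {P : E} (hP : P ≠ 0) : -P ≠ 0 := by
  exact neg_ne_zero.mpr hP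

/-- points with the same `X` are equal or opposite -/
theorem eq_or_eq_neg_of_X_eq {P Q : E} (hP : P ≠ 0) (hQ : Q ≠ 0) (h : M.X P = M.X Q) :
    P = Q ∨ P = -Q := by
  have hsq : M.Y P ^ 2 = M.Y Q ^ 2 := by
    rw [M.eqn P hP, M.eqn Q hQ, h]
  rcases sq_eq_sq_iff_eq_or_eq_neg.mp hsq with hY | hY
  · exact Or.inl (M.ext P Q hP hQ h hY)
  · refine Or.inr (M.ext P (-Q) hP (neg_ne_zero.mpr hQ) ?_ ?_)
    · rw [M.X_neg Q hQ]
      exact h
    · rw [M.Y_neg Q hQ]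
      exact hY

theorem add_ne_zero_of_X_ne {P Q : E} (hP : P ≠ 0) (hQ : Q ≠ 0) (h : M.X P ≠ M.X Q) :
    P + Q ≠ 0 := by
  have _ := hP
  intro h0
  apply h
  have hPQ : P = -Q := eq_neg_of_add_eq_zero_left h0
  calc M.X P = M.X (-Q) := congrArg M.X hPQ
    _ = M.X Q := M.X_neg Q hQ

theorem X_ne_of_ne_of_ne_neg {P Q : E} (hP : P ≠ 0) (hQ : Q ≠ 0) (h1 : P ≠ Q) (h2 : P ≠ -Q) :
    M.X P ≠ M.X Q := by
  intro h
  rcases M.eq_or_eq_neg_of_X_eq hP hQ h with h' | h'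
  · exact h1 h'
  · exact h2 h'

/-- a point with `Y = 0` is 2-torsion -/
theorem add_self_eq_zero_of_Y_eq_zero {P : E} (hP : P ≠ 0) (hY : M.Y P = 0) : P + P = 0 := by
  have hneg : -P = P := by
    refine M.ext (-P) P (neg_ne_zero.mpr hP) hP (M.X_neg P hP) ?_
    rw [M.Y_neg P hP, hY, neg_zero]
  have h0 : -P + P = 0 := neg_add_cancel P
  rw [hneg] at h0
  exact h0

theorem add_self_ne_zero_of_Y_ne_zero (h2 : (2 : L) ≠ 0) {P : E} (hP : P ≠ 0) (hY : M.Y P ≠ 0) :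
    P + P ≠ 0 := by
  intro h0
  apply hY
  have hPP : P = -P := eq_neg_of_add_eq_zero_left h0
  have hYY : M.Y P = -M.Y P := by
    calc M.Y P = M.Y (-P) := congrArg M.Y hPP
      _ = -M.Y P := M.Y_neg P hP
  have h2Y : (2 : L) * M.Y P = 0 := by
    have h3 : M.Y P + M.Y P = 0 := by
      nth_rewrite 1 [hYY]
      exact neg_add_cancel _
    rw [two_mul]
    exact h3
  exact (mul_eq_zero.mp h2Y).resolve_left h2

theorem T0_add_T0 : M.T0 + M.T0 = 0 := by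
  exact M.add_self_eq_zero_of_Y_eq_zero M.T0_ne_zero M.Y_T0

/-- the only point with `X = 0` is `T0` (needs `α β ≠ 0`... no: `Y² = 0`) -/
theorem eq_T0_of_X_eq_zero {P : E} (hP : P ≠ 0) (hX : M.X P = 0) : P = M.T0 := by
  have hsq : M.Y P ^ 2 = 0 := by
    rw [M.eqn P hP, hX, zero_mul, zero_mul]
  have hY : M.Y P = 0 := pow_eq_zero_iff (two_ne_zero) |>.mp hsq
  refine M.ext P M.T0 hP M.T0_ne_zero ?_ ?_
  · rw [hX, M.X_T0]
  · rw [hY, M.Y_T0]

theorem τ_neg {P : E} (hP : P ≠ 0) : M.τ (-P) = -M.τ P := by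
  rw [M.τ_def, M.τ_def, M.X_neg P hP, M.Y_neg P hP, neg_div]

theorem τ_sq {P : E} (hP : P ≠ 0) (hX : M.X P ≠ 0) :
    M.τ P ^ 2 = M.X P + (β - α) - α * β / M.X P := by
  rw [M.τ_def, div_pow, M.eqn P hP]
  field_simp
  ring

theorem Y_eq_τ_mul_X {P : E} (hX : M.X P ≠ 0) : M.Y P = M.τ P * M.X P := by
  rw [M.τ_def, div_mul_cancel₀ _ hX]

/-! ### translation by `T0` -/

theorem add_T0_ne_zero {P : E} (hP : P ≠ 0) (hX : M.X P ≠ 0) : P + M.T0 ≠ 0 := by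
  refine M.add_ne_zero_of_X_ne hP M.T0_ne_zero ?_
  rw [M.X_T0]
  exact hX

theorem X_add_T0 {P : E} (hP : P ≠ 0) (hX : M.X P ≠ 0) :
    M.X (P + M.T0) = -(α * β) / M.X P := by
  have hne : M.X P ≠ M.X M.T0 := by
    rw [M.X_T0]
    exact hX
  rw [M.X_add P M.T0 hP M.T0_ne_zero hne, M.X_T0, M.Y_T0, sub_zero, sub_zero, sub_zero, div_pow,
    M.eqn P hP]
  field_simp
  ring

theorem Y_add_T0 {P : E} (hP : P ≠ 0) (hX : M.X P ≠ 0) :
    M.Y (P + M.T0) = α * β * M.Y P / M.X P ^ 2 := by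
  have hne : M.X P ≠ M.X M.T0 := by
    rw [M.X_T0]
    exact hX
  rw [M.Y_add P M.T0 hP M.T0_ne_zero hne, M.X_add_T0 hP hX, M.X_T0, M.Y_T0, sub_zero, sub_zero]
  field_simp
  ring

theorem τ_add_T0 (hαβ : α * β ≠ 0) {P : E} (hP : P ≠ 0) (hX : M.X P ≠ 0) :
    M.τ (P + M.T0) = -M.τ P := by
  have hα : α ≠ 0 := left_ne_zero_of_mul hαβ
  have hβ : β ≠ 0 := right_ne_zero_of_mul hαβ
  rw [M.τ_def, M.τ_def, M.Y_add_T0 hP hX, M.X_add_T0 hP hX]
  field_simp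

end LegModel

end Fermat.Agent.S05L
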