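import Mathlib

/-!
# S05 package: the value class group `CQ v β = Γ₀ˣ ⧸ ⟨v(β)²⟩`

(statements frozen)
-/

set_option autoImplicit false

namespace Fermat.Agent.S05L

variable {L : Type*} [Field L] {Γ₀ : Type*} [LinearOrderedCommGroupWithZero Γ₀] (v : Valuation L Γ₀)

/-! ### the value class group -/

/-- the valuation of `x` as a unit of the value monoid (`1` for `x = 0`) -/
noncomputable def vU (x : L) : Γ₀ˣ :=
  open Classical in if h : x = 0 then 1 else Units.mk0 (v x) ((Valuation.ne_zero_iff v).2 h)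

theorem vU_of_ne_zero {x : L} (hx : x ≠ 0) :
    vU v x = Units.mk0 (v x) ((Valuation.ne_zero_iff v).2 hx) := by
  unfold vU
  rw [dif_neg hx]

theorem coe_vU {x : L} (hx : x ≠ 0) : ((vU v x : Γ₀ˣ) : Γ₀) = v x := by
  rw [vU_of_ne_zero v hx, Units.val_mk0]

theorem vU_mul {x y : L} (hx : x ≠ 0) (hy : y ≠ 0) : vU v (x * y) = vU v x * vU v y := by
  apply Units.ext
  rw [Units.val_mul, coe_vU v hx, coe_vU v hy, coe_vU v (mul_ne_zero hx hy), map_mul]

theorem vU_inv {x : L} (hx : x ≠ 0) : vU v x⁻¹ = (vU v x)⁻¹ := by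
  apply Units.ext
  rw [Units.val_inv_eq_inv_val, coe_vU v hx, coe_vU v (inv_ne_zero hx), map_inv₀]

theorem vU_eq_of_v_eq {x y : L} (hx : x ≠ 0) (hy : y ≠ 0) (h : v x = v y) : vU v x = vU v y := by
  apply Units.ext
  rw [coe_vU v hx, coe_vU v hy, h]

/-- the component group `Γ₀ˣ ⧸ ⟨v(β)²⟩` -/
abbrev CQ (β : L) : Type _ := Γ₀ˣ ⧸ Subgroup.zpowers (vU v β ^ 2)

/-- the class of `x` in the component group -/
noncomputable def cls (β x : L) : CQ v β := QuotientGroup.mk (vU v x)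

theorem cls_mul (β : L) {x y : L} (hx : x ≠ 0) (hy : y ≠ 0) :
    cls v β (x * y) = cls v β x * cls v β y := by
  unfold cls
  rw [vU_mul v hx hy, QuotientGroup.mk_mul]

theorem cls_inv (β : L) {x : L} (hx : x ≠ 0) : cls v β x⁻¹ = (cls v β x)⁻¹ := by
  unfold cls
  rw [vU_inv v hx, QuotientGroup.mk_inv]

theorem cls_div (β : L) {x y : L} (hx : x ≠ 0) (hy : y ≠ 0) :
    cls v β (x / y) = cls v β x * (cls v β y)⁻¹ := by
  rw [div_eq_mul_inv, cls_mul v β hx (inv_ne_zero hy), cls_inv v β hy]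

theorem cls_eq_of_v_eq (β : L) {x y : L} (hx : x ≠ 0) (hy : y ≠ 0) (h : v x = v y) :
    cls v β x = cls v β y := by
  unfold cls
  rw [vU_eq_of_v_eq v hx hy h]

theorem cls_eq_one_of_v_eq_one (β : L) {x : L} (h : v x = 1) : cls v β x = 1 := by
  have hx : x ≠ 0 := by
    rintro rfl
    rw [map_zero] at h
    exact zero_ne_one h
  have h1 : vU v x = 1 := by
    apply Units.ext
    rw [coe_vU v hx, h, Units.val_one]
  unfold cls
  rw [h1, QuotientGroup.mk_one]

theorem cls_β_mul_self (β : L) : cls v β β * cls v β β = 1 := by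
  unfold cls
  rw [← QuotientGroup.mk_mul, ← pow_two, QuotientGroup.eq_one_iff]
  exact Subgroup.mem_zpowers _

theorem cls_β_inv (β : L) : (cls v β β)⁻¹ = cls v β β := by
  exact inv_eq_of_mul_eq_one_right (cls_β_mul_self v β)

/-- if `v x · v y = v β ²` then `[x]⁻¹ = [y]`. -/
theorem cls_inv_eq_of_mul_eq (β : L) {x y : L} (hx : x ≠ 0) (hy : y ≠ 0) (hβ0 : β ≠ 0)
    (h : v x * v y = v β ^ 2) : (cls v β x)⁻¹ = cls v β y := by
  apply inv_eq_of_mul_eq_one_right
  have hU : vU v x * vU v y = vU v β ^ 2 := by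
    apply Units.ext
    rw [Units.val_mul, Units.val_pow_eq_pow_val, coe_vU v hx, coe_vU v hy, coe_vU v hβ0, h]
  unfold cls
  rw [← QuotientGroup.mk_mul, QuotientGroup.eq_one_iff, hU]
  exact Subgroup.mem_zpowers _

/-- a class killed by `n`: `v x ^ n = v β ^ (2 k)` for some integer `k`. -/
theorem exists_zpow_of_cls_pow_eq_one (β : L) {x : L} (hx : x ≠ 0) (hβ0 : β ≠ 0) (n : ℕ)
    (h : cls v β x ^ n = 1) : ∃ k : ℤ, v x ^ n = v β ^ (2 * k) := by
  unfold cls at h
  rw [← QuotientGroup.mk_pow, QuotientGroup.eq_one_iff, Subgroup.mem_zpowers_iff] at h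
  obtain ⟨k, hk⟩ := h
  refine ⟨k, ?_⟩
  have hk' := congrArg (Units.val) hk
  rw [Units.val_zpow_eq_zpow_val, Units.val_pow_eq_pow_val, Units.val_pow_eq_pow_val,
    coe_vU v hx, coe_vU v hβ0] at hk'
  rw [← hk', zpow_mul, zpow_ofNat]


end Fermat.Agent.S05L
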