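import Fermat.Agent.S05L.Types

/-!
# S05 package, part 1d (Theorem C): `E₀` is a subgroup

(statements frozen)  Setting: `v α = 1`, `v β < 1`, `v 2 = 1`, `s² = -α`.
-/

set_option autoImplicit false

namespace Fermat.Agent.S05L

variable {L : Type*} [Field L] {α β : L} {E : Type*} [AddCommGroup E] (M : LegModel L α β E)
  {Γ₀ : Type*} [LinearOrderedCommGroupWithZero Γ₀] (v : Valuation L Γ₀)
  (hα : v α = 1) (hβ : v β < 1) (h2 : v (2 : L) = 1)
include hα hβ h2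

omit hα hβ h2 in
/-- in the value monoid, `a * b = 1` with `b ≤ 1` forces `1 ≤ a` -/
theorem CompE0a_aux_one_le_of_mul_eq_one {a b : Γ₀} (h : a * b = 1) (hb : b ≤ 1) : 1 ≤ a :=
  calc (1 : Γ₀) = a * b := h.symm
    _ ≤ a * 1 := mul_le_mul' le_rfl hb
    _ = a := mul_one a

omit h2 in
/-- the coordinate `Y` of a point with integral `X` is integral -/
theorem CompE0a_aux_v_Y_le_one {P : E} (hP : P ≠ 0) (hPv : v (M.X P) ≤ 1) : v (M.Y P) ≤ 1 := by
  have h1 : v (M.Y P) ^ 2 = v (M.X P) * v (M.X P - α) * v (M.X P + β) := by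
    rw [← map_pow, M.eqn P hP, map_mul, map_mul]
  have h3 : v (M.X P - α) ≤ 1 := v.map_sub_le hPv hα.le
  have h4 : v (M.X P + β) ≤ 1 := v.map_add_le hPv hβ.le
  have h5 : v (M.Y P) ^ 2 ≤ 1 := by
    rw [h1]
    exact mul_le_one' (mul_le_one' hPv h3) h4
  exact (pow_le_one_iff two_ne_zero).1 h5

omit h2 in
/-- `α * β` lies in the maximal ideal -/
theorem CompE0a_aux_v_αβ_lt_one : v (α * β) < 1 := by
  rw [map_mul, hα, one_mul]
  exact hβ

omit hα hβ in
/-- `2` is invertible -/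
theorem CompE0a_aux_two_ne_zero : (2 : L) ≠ 0 := by
  intro h
  rw [h, map_zero] at h2
  exact zero_ne_one h2

set_option linter.unusedSectionVars false in
/-- unit + unit, chord -/
theorem one_le_v_X_add_of_unit_unit {P Q : E} (hP : P ≠ 0) (hQ : Q ≠ 0) (hPv : v (M.X P) = 1)
    (hQv : v (M.X Q) = 1) (hX : M.X P ≠ M.X Q) : 1 ≤ v (M.X (P + Q)) := by
  have hI := M.I1 hP hQ hX
  have hYP : v (M.Y P) ≤ 1 := CompE0a_aux_v_Y_le_one M v hα hβ hP hPv.le
  have hYQ : v (M.Y Q) ≤ 1 := CompE0a_aux_v_Y_le_one M v hα hβ hQ hQv.le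
  have hαβ : v (α * β) < 1 := CompE0a_aux_v_αβ_lt_one v hα hβ
  have hXX : v (M.X P * M.X Q) = 1 := by rw [map_mul, hPv, hQv, one_mul]
  have hδ : v (M.X P * M.X Q + α * β) = 1 := by
    rw [v.map_add_eq_of_lt_left (by rw [hXX]; exact hαβ), hXX]
  have hs : v (M.Y P * M.X Q + M.Y Q * M.X P) ≤ 1 := by
    apply v.map_add_le
    · rw [map_mul, hQv, mul_one]; exact hYP
    · rw [map_mul, hPv, mul_one]; exact hYQ
  have hv := congrArg v hI
  rw [map_mul, map_pow, map_mul, map_pow, hXX, hδ, one_pow, one_mul] at hv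
  exact CompE0a_aux_one_le_of_mul_eq_one hv (pow_le_one' hs 2)

/-- unit, tangent -/
theorem inE0_dbl_of_unit {P : E} (hP : P ≠ 0) (hPv : v (M.X P) = 1) : InE0 M v (P + P) := by
  have h2' : (2 : L) ≠ 0 := CompE0a_aux_two_ne_zero v h2
  by_cases hY : M.Y P = 0
  · exact Or.inl (M.add_self_eq_zero_of_Y_eq_zero hP hY)
  · right
    have hD := M.dbl_X h2' hP hY
    have hYP : v (M.Y P) ≤ 1 := CompE0a_aux_v_Y_le_one M v hα hβ hP hPv.le
    have hαβ : v (α * β) < 1 := CompE0a_aux_v_αβ_lt_one v hα hβ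
    have hXX : v (M.X P ^ 2) = 1 := by rw [map_pow, hPv, one_pow]
    have hδ : v (M.X P ^ 2 + α * β) = 1 := by
      rw [v.map_add_eq_of_lt_left (by rw [hXX]; exact hαβ), hXX]
    have h4 : v (4 * M.Y P ^ 2) ≤ 1 := by
      have h22 : (4 : L) = 2 * 2 := by norm_num
      rw [map_mul, h22, map_mul, h2, one_mul, one_mul, map_pow]
      exact pow_le_one' hYP 2
    have hv := congrArg v hD
    rw [map_mul, map_pow, hδ, one_pow] at hv
    exact CompE0a_aux_one_le_of_mul_eq_one hv h4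

set_option linter.unusedSectionVars false in
/-- `E₁` + unit is a unit-type point -/
theorem v_X_add_of_E1_unit {P Q : E} (hP : P ≠ 0) (hQ : Q ≠ 0) (hPv : 1 < v (M.X P))
    (hQv : v (M.X Q) = 1) : v (M.X (P + Q)) = 1 := by
  have hX : M.X P ≠ M.X Q := by
    intro h
    rw [h, hQv] at hPv
    exact lt_irrefl _ hPv
  have hI := M.I1 hP hQ hX
  have hYsq : v (M.Y P) ^ 2 = v (M.X P) ^ 3 := inE1_v_Y_sq M v hα.le hβ.le hP hPv
  have hYQ : v (M.Y Q) ≤ 1 := CompE0a_aux_v_Y_le_one M v hα hβ hQ hQv.le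
  have hXP0 : v (M.X P) ≠ 0 := (zero_lt_one.trans hPv).ne'
  have hXY : v (M.X P) < v (M.Y P) := by
    apply lt_of_pow_lt_pow_left₀ 2 zero_le
    rw [hYsq]
    exact pow_lt_pow_right₀ hPv (by norm_num)
  have hs : v (M.Y P * M.X Q + M.Y Q * M.X P) = v (M.Y P) := by
    have h1 : v (M.Y P * M.X Q) = v (M.Y P) := by rw [map_mul, hQv, mul_one]
    have h3 : v (M.Y Q * M.X P) < v (M.Y P * M.X Q) := by
      rw [h1, map_mul]
      calc v (M.Y Q) * v (M.X P) ≤ 1 * v (M.X P) := mul_le_mul' hYQ le_rfl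
        _ = v (M.X P) := one_mul _
        _ < v (M.Y P) := hXY
    rw [v.map_add_eq_of_lt_left h3, h1]
  have hαβ : v (α * β) < 1 := CompE0a_aux_v_αβ_lt_one v hα hβ
  have hXX : v (M.X P * M.X Q) = v (M.X P) := by rw [map_mul, hQv, mul_one]
  have hδ : v (M.X P * M.X Q + α * β) = v (M.X P) := by
    rw [v.map_add_eq_of_lt_left (by rw [hXX]; exact hαβ.trans hPv), hXX]
  have hv := congrArg v hI
  rw [map_mul, map_pow, hs, hYsq, map_mul, map_pow, hXX, hδ, ← pow_succ'] at hv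
  exact mul_right_cancel₀ (pow_ne_zero 3 hXP0) (by rw [hv, one_mul])

/-- `E₀` is closed under addition -/
theorem inE0_add {P Q : E} (hP : InE0 M v P) (hQ : InE0 M v Q) : InE0 M v (P + Q) := by
  have h2' : (2 : L) ≠ 0 := CompE0a_aux_two_ne_zero v h2
  by_cases hP0 : P = 0
  · rw [hP0, zero_add]
    exact hQ
  by_cases hQ0 : Q = 0
  · rw [hQ0, add_zero]
    exact hP
  have hPv : 1 ≤ v (M.X P) := hP.resolve_left hP0
  have hQv : 1 ≤ v (M.X Q) := hQ.resolve_left hQ0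
  rcases hPv.lt_or_eq with hP1 | hP1
  · rcases hQv.lt_or_eq with hQ1 | hQ1
    · exact inE0_of_inE1 M v (inE1_add M v hα.le hβ.le h2' (Or.inr hP1) (Or.inr hQ1))
    · exact Or.inr (v_X_add_of_E1_unit M v hα hβ h2 hP0 hQ0 hP1 hQ1.symm).ge
  · rcases hQv.lt_or_eq with hQ1 | hQ1
    · rw [add_comm]
      exact Or.inr (v_X_add_of_E1_unit M v hα hβ h2 hQ0 hP0 hQ1 hP1.symm).ge
    · by_cases hX : M.X P = M.X Q
      · rcases M.eq_or_eq_neg_of_X_eq hP0 hQ0 hX with h | h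
        · rw [← h]
          exact inE0_dbl_of_unit M v hα hβ h2 hP0 hP1.symm
        · rw [h, neg_add_cancel]
          exact Or.inl rfl
      · exact Or.inr (one_le_v_X_add_of_unit_unit M v hα hβ h2 hP0 hQ0 hP1.symm hQ1.symm hX)

end Fermat.Agent.S05L
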