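import Fermat.Agent.S05L.Types

/-!
# S05 package, part 1d (Theorem C): near₊ + near₋

(statements frozen)  Setting: `v α = 1`, `v β < 1`, `v 2 = 1`, `s² = -α`.
Uses (I2τ) and `τ₃ = -Λ - ν / X₃` with `ν / X₃ = (X₂ - X₁)/(τ₁ - τ₂)` (NOT (F3): `τ₁ + τ₂` may vanish).
-/

set_option autoImplicit false

namespace Fermat.Agent.S05L

variable {L : Type*} [Field L] {α β : L} {E : Type*} [AddCommGroup E] (M : LegModel L α β E)
  {Γ₀ : Type*} [LinearOrderedCommGroupWithZero Γ₀] (v : Valuation L Γ₀)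
  (hα : v α = 1) (hβ : v β < 1) (h2 : v (2 : L) = 1) (s : L) (hs : s ^ 2 = -α)
include hα hβ h2 hs

/-- `v (τ₁ - τ₂) = 1` for a near₊ and a near₋ point -/
theorem v_τ_sub_τ {P Q : E} (hP : IsNearP M v s P) (hQ : IsNearM M v s Q) :
    v (M.τ P - M.τ Q) = 1 := by
  have hs1 : v s = 1 := v_s v hα hβ h2 s hs
  have h2s : v (2 * s) = 1 := by rw [map_mul, h2, hs1, one_mul]
  have e : M.τ P - M.τ Q = 2 * s + ((M.τ P - s) - (M.τ Q + s)) := by ring
  have hsmall : v ((M.τ P - s) - (M.τ Q + s)) < 1 := Valuation.map_sub_lt v hP.2 hQ.2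
  rw [e, Valuation.map_add_eq_of_lt_left v (by rw [h2s]; exact hsmall), h2s]

/-- `ord X(P) < ord X(Q)`: the sum is near₋ (the sign of `Q`) with `X₃ ~ X(Q)/X(P)` -/
theorem nearP_add_nearM_lt {P Q : E} (hP : IsNearP M v s P) (hQ : IsNearM M v s Q)
    (h : v (M.X Q) < v (M.X P)) :
    IsNearM M v s (P + Q) ∧ v (M.X (P + Q)) * v (M.X P) = v (M.X Q) := by
  have hP0 : P ≠ 0 := hP.1.1
  have hQ0 : Q ≠ 0 := hQ.1.1
  have hX1 : M.X P ≠ 0 := X_ne_zero_of_isNear M v hβ hP.1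
  have hX2 : M.X Q ≠ 0 := X_ne_zero_of_isNear M v hβ hQ.1
  have hne : M.X P ≠ M.X Q := fun e => by rw [e] at h; exact lt_irrefl _ h
  have hsub : M.X P - M.X Q ≠ 0 := sub_ne_zero.2 hne
  have hτ : v (M.τ P - M.τ Q) = 1 := v_τ_sub_τ M v hα hβ h2 s hs hP hQ
  have hτ0 : M.τ P - M.τ Q ≠ 0 := fun e => by rw [e, map_zero] at hτ; exact zero_ne_one hτ
  have hvsub : v (M.X P - M.X Q) = v (M.X P) := Valuation.map_sub_eq_of_lt_left v h
  have hv1 : v (M.X P) ≠ 0 := (Valuation.ne_zero_iff v).2 hX1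
  have hv2 : v (M.X Q) ≠ 0 := (Valuation.ne_zero_iff v).2 hX2
  have hI := congrArg v (M.I2τ hP0 hQ0 hne hX1 hX2)
  simp only [map_mul, map_pow, hvsub, hτ, one_pow, mul_one] at hI
  have hv3 : v (M.X (P + Q)) * v (M.X P) = v (M.X Q) := by
    have : v (M.X (P + Q)) * v (M.X P) * v (M.X P) = v (M.X Q) * v (M.X P) := by
      rw [mul_assoc, ← pow_two, hI, mul_comm]
    exact (mul_left_inj' hv1).mp this
  have hX3 : M.X (P + Q) ≠ 0 := by
    intro e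
    rw [e, map_zero, zero_mul] at hv3
    exact hv2 hv3.symm
  have hlt1 : v (M.X (P + Q)) < 1 := by
    have : v (M.X (P + Q)) * v (M.X P) < 1 * v (M.X P) := by rw [hv3, one_mul]; exact h
    exact lt_of_mul_lt_mul_right' this
  have hgt : v β < v (M.X (P + Q)) := by
    by_contra hcon
    push Not at hcon
    have h1 : v (M.X (P + Q)) * v (M.X P) ≤ v β * 1 := mul_le_mul' hcon hP.1.2.2.le
    rw [hv3, mul_one] at h1
    exact absurd hQ.1.2.1 (not_lt.2 h1)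
  have hPQ0 : P + Q ≠ 0 := M.add_ne_zero_of_X_ne hP0 hQ0 hne
  refine ⟨⟨⟨hPQ0, hgt, hlt1⟩, ?_⟩, hv3⟩
  have hτ3 := M.τ_add hP0 hQ0 hne hX3
  rw [M.ν_div_X_add hP0 hQ0 hne hX1 hX2 hτ0, M.slope_eq hX1 hX2] at hτ3
  have e : M.τ (P + Q) + s = -(M.τ P - s) - (M.τ P - M.τ Q) * (M.X Q / (M.X P - M.X Q))
      - (M.X Q - M.X P) / (M.τ P - M.τ Q) := by
    rw [hτ3]
    field_simp
    ring
  rw [e]
  refine Valuation.map_sub_lt v (Valuation.map_sub_lt v ?_ ?_) ?_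
  · rw [Valuation.map_neg]
    exact hP.2
  · rw [map_mul, hτ, one_mul, map_div₀, hvsub]
    exact (div_lt_one₀ (zero_lt_iff.mpr hv1)).2 h
  · rw [map_div₀, hτ, div_one, ← Valuation.map_sub_swap, hvsub]
    exact hP.1.2.2

/-- `ord X(P) > ord X(Q)`: the sum is near₊ with `X₃ ~ X(P)/X(Q)` -/
theorem nearP_add_nearM_gt {P Q : E} (hP : IsNearP M v s P) (hQ : IsNearM M v s Q)
    (h : v (M.X P) < v (M.X Q)) :
    IsNearP M v s (P + Q) ∧ v (M.X (P + Q)) * v (M.X Q) = v (M.X P) := by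
  have hs' : (-s) ^ 2 = -α := by rw [neg_sq, hs]
  have hQ' : IsNearP M v (-s) Q := ⟨hQ.1, by rw [sub_neg_eq_add]; exact hQ.2⟩
  have hP' : IsNearM M v (-s) P := ⟨hP.1, by rw [← sub_eq_add_neg]; exact hP.2⟩
  obtain ⟨h1, h3⟩ := nearP_add_nearM_lt M v hα hβ h2 (-s) hs' hQ' hP' h
  rw [add_comm Q P] at h1 h3
  exact ⟨⟨h1.1, by rw [sub_eq_add_neg]; exact h1.2⟩, h3⟩

/-- `ord X(P) = ord X(Q)`: the sum lies in `E₀` (this includes `Q = -P`) -/
theorem nearP_add_nearM_eq {P Q : E} (hP : IsNearP M v s P) (hQ : IsNearM M v s Q)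
    (h : v (M.X P) = v (M.X Q)) : InE0 M v (P + Q) := by
  have hP0 : P ≠ 0 := hP.1.1
  have hQ0 : Q ≠ 0 := hQ.1.1
  have hX1 : M.X P ≠ 0 := X_ne_zero_of_isNear M v hβ hP.1
  have hX2 : M.X Q ≠ 0 := X_ne_zero_of_isNear M v hβ hQ.1
  by_cases hne : M.X P = M.X Q
  · rcases M.eq_or_eq_neg_of_X_eq hP0 hQ0 hne with e | e
    · exfalso
      rw [← e] at hQ
      exact not_isNearP_and_isNearM M v hα hβ h2 s hs ⟨hP, hQ⟩
    · left
      rw [e, neg_add_cancel]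
  · right
    have hsub : M.X P - M.X Q ≠ 0 := sub_ne_zero.2 hne
    have hτ : v (M.τ P - M.τ Q) = 1 := v_τ_sub_τ M v hα hβ h2 s hs hP hQ
    have hI := congrArg v (M.I2τ hP0 hQ0 hne hX1 hX2)
    simp only [map_mul, map_pow, hτ, one_pow, mul_one] at hI
    have hle : v (M.X P - M.X Q) ≤ v (M.X P) := by
      have := Valuation.map_sub v (M.X P) (M.X Q)
      rwa [← h, max_self] at this
    have hw0 : v (M.X P - M.X Q) ^ 2 ≠ 0 := pow_ne_zero 2 ((Valuation.ne_zero_iff v).2 hsub)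
    by_contra hcon
    push Not at hcon
    have h1 : v (M.X (P + Q)) * v (M.X P - M.X Q) ^ 2 < 1 * v (M.X P - M.X Q) ^ 2 :=
      mul_lt_mul_of_pos_right hcon (zero_lt_iff.mpr hw0)
    rw [hI, one_mul, ← h, ← pow_two] at h1
    exact absurd (pow_le_pow_left' hle 2) (not_le.2 h1)

/-- **Theorem C** for a near₊ and a near₋ point -/
theorem comp_add_nearP_nearM {P Q : E} (hP : IsNearP M v s P) (hQ : IsNearM M v s Q) :
    comp M v s (P + Q) = cls v β (M.X P) * (cls v β (M.X Q))⁻¹ := by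
  have hX1 : M.X P ≠ 0 := X_ne_zero_of_isNear M v hβ hP.1
  have hX2 : M.X Q ≠ 0 := X_ne_zero_of_isNear M v hβ hQ.1
  rcases lt_trichotomy (v (M.X Q)) (v (M.X P)) with h | h | h
  · obtain ⟨h1, h3⟩ := nearP_add_nearM_lt M v hα hβ h2 s hs hP hQ h
    have hX3 : M.X (P + Q) ≠ 0 := X_ne_zero_of_isNear M v hβ h1.1
    rw [comp_of_isNearM M v hα hβ h2 s hs h1]
    have e : cls v β (M.X (P + Q)) * cls v β (M.X P) = cls v β (M.X Q) := by
      rw [← cls_mul v β hX3 hX1]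
      exact cls_eq_of_v_eq v β (mul_ne_zero hX3 hX1) hX2 (by rw [map_mul, h3])
    rw [← e]
    group
  · have h0 := nearP_add_nearM_eq M v hα hβ h2 s hs hP hQ h.symm
    rw [comp_of_inE0 M v hα hβ h2 s hs h0, cls_eq_of_v_eq v β hX1 hX2 h.symm, mul_inv_cancel]
  · obtain ⟨h1, h3⟩ := nearP_add_nearM_gt M v hα hβ h2 s hs hP hQ h
    have hX3 : M.X (P + Q) ≠ 0 := X_ne_zero_of_isNear M v hβ h1.1
    rw [comp_of_isNearP M v hα hβ h2 s hs h1]
    have e : cls v β (M.X (P + Q)) * cls v β (M.X Q) = cls v β (M.X P) := by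
      rw [← cls_mul v β hX3 hX2]
      exact cls_eq_of_v_eq v β (mul_ne_zero hX3 hX2) hX1 (by rw [map_mul, h3])
    rw [← e]
    group

end Fermat.Agent.S05L
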