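import Fermat.Agent.S05L.CompNearCore

/-!
# S05 package, part 1d (Theorem C): near₊ + near₊ (chord and tangent)

(statements frozen)  Setting: `v α = 1`, `v β < 1`, `v 2 = 1`, `s² = -α`.
Multiplicative valuations: "ord(X₁X₂) < ord β" is `v β < v X₁ * v X₂`.
-/

set_option autoImplicit false

namespace Fermat.Agent.S05L

variable {L : Type*} [Field L] {α β : L} {E : Type*} [AddCommGroup E] (M : LegModel L α β E)
  {Γ₀ : Type*} [LinearOrderedCommGroupWithZero Γ₀] (v : Valuation L Γ₀)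
  (hα : v α = 1) (hβ : v β < 1) (h2 : v (2 : L) = 1) (s : L) (hs : s ^ 2 = -α)
include hα hβ h2 hs

/-- `2 s` is a unit -/
theorem CompNear_aux_v_two_mul_s : v (2 * s) = 1 := by
  rw [map_mul, h2, v_s v hα hβ h2 s hs, one_mul]

/-- if `τ₁ ≡ s` and `τ₂ ≡ s` then `τ₁ + τ₂ ≡ 2 s` is a unit -/
theorem CompNear_aux_v_add {τ₁ τ₂ : L} (h1 : v (τ₁ - s) < 1) (h2' : v (τ₂ - s) < 1) :
    v (τ₁ + τ₂) = 1 := by
  have h2s : v (2 * s) = 1 := CompNear_aux_v_two_mul_s v hα hβ h2 s hs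
  have e : τ₁ + τ₂ = 2 * s + ((τ₁ - s) + (τ₂ - s)) := by ring
  have hlt : v ((τ₁ - s) + (τ₂ - s)) < v (2 * s) := by
    rw [h2s]
    exact v.map_add_lt h1 h2'
  rw [e, v.map_add_eq_of_lt_left hlt, h2s]

/-- two near₊ points have the same `X` only if they are equal -/
theorem eq_of_isNearP_of_X_eq {P Q : E} (hP : IsNearP M v s P) (hQ : IsNearP M v s Q)
    (h : M.X P = M.X Q) : P = Q := by
  obtain ⟨⟨hP0, -, -⟩, hPτ⟩ := hP
  obtain ⟨⟨hQ0, -, -⟩, hQτ⟩ := hQ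
  rcases M.eq_or_eq_neg_of_X_eq hP0 hQ0 h with h' | h'
  · exact h'
  · exfalso
    rw [h', M.τ_neg hQ0] at hPτ
    have h1 : v ((M.τ Q - s) + (-M.τ Q - s)) < 1 := v.map_add_lt hQτ hPτ
    have h2s : v (2 * s) = 1 := CompNear_aux_v_two_mul_s v hα hβ h2 s hs
    have e : (M.τ Q - s) + (-M.τ Q - s) = -(2 * s) := by ring
    rw [e, Valuation.map_neg, h2s] at h1
    exact lt_irrefl _ h1

/-- the sum of two near₊ points is nonzero, and the identities (I1τ), (F3) hold for it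
(chord or tangent) -/
theorem nearPP_identities {P Q : E} (hP : IsNearP M v s P) (hQ : IsNearP M v s Q) :
    P + Q ≠ 0 ∧
    M.X P * M.X Q * M.X (P + Q) * (M.τ P + M.τ Q) ^ 2 = (M.X P * M.X Q + α * β) ^ 2 ∧
    (M.X P * M.X Q + α * β ≠ 0 →
      M.τ (P + Q) = -M.τ P - (M.X P * M.X Q + α * β) / (M.X P * (M.τ P + M.τ Q))
        + (M.τ P + M.τ Q) * (M.X P * M.X Q) / (M.X P * M.X Q + α * β)) := by
  have hP0 : P ≠ 0 := hP.1.1
  have hQ0 : Q ≠ 0 := hQ.1.1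
  have hXP : M.X P ≠ 0 := X_ne_zero_of_isNear M v hβ hP.1
  have hXQ : M.X Q ≠ 0 := X_ne_zero_of_isNear M v hβ hQ.1
  have h20 : (2 : L) ≠ 0 := by
    intro h0
    rw [h0, map_zero] at h2
    exact zero_ne_one h2
  by_cases h : M.X P = M.X Q
  · have hPQ : P = Q := eq_of_isNearP_of_X_eq M v hα hβ h2 s hs hP hQ h
    subst hPQ
    have hτ0 : M.τ P ≠ 0 := by
      intro h0
      have h1 := (isNear_τ M v hα hβ h2 s hs hP.1).2
      rw [h0, map_zero] at h1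
      exact zero_ne_one h1
    have hY : M.Y P ≠ 0 := by
      rw [M.Y_eq_τ_mul_X hXP]
      exact mul_ne_zero hτ0 hXP
    exact ⟨M.add_self_ne_zero_of_Y_ne_zero h20 hP0 hY, M.dbl_I1τ h20 hP0 hY,
      fun hδ => M.dbl_F3 h20 hP0 hY hδ⟩
  · have hτ : M.τ P + M.τ Q ≠ 0 := by
      intro h0
      have h1 := CompNear_aux_v_add v hα hβ h2 s hs hP.2 hQ.2
      rw [h0, map_zero] at h1
      exact zero_ne_one h1
    exact ⟨M.add_ne_zero_of_X_ne hP0 hQ0 h, M.I1τ hP0 hQ0 h hXP hXQ,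
      fun hδ => M.F3 hP0 hQ0 h hXP hXQ hτ hδ⟩

theorem nearP_add_nearP_lt {P Q : E} (hP : IsNearP M v s P) (hQ : IsNearP M v s Q)
    (h : v β < v (M.X P) * v (M.X Q)) :
    IsNearP M v s (P + Q) ∧ v (M.X (P + Q)) = v (M.X P) * v (M.X Q) := by
  obtain ⟨h0, hI, hF⟩ := nearPP_identities M v hα hβ h2 s hs hP hQ
  obtain ⟨hX3, hτ3⟩ := nearPP_core_lt v hα hβ h2 s hs hP.1.2 hQ.1.2 hP.2 hQ.2 hI hF h
  refine ⟨⟨⟨h0, ?_, ?_⟩, hτ3⟩, hX3⟩
  · rw [hX3]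
    exact h
  · rw [hX3]
    exact mul_lt_one_of_nonneg_of_lt_one_left zero_le hP.1.2.2 hQ.1.2.2.le

theorem nearP_add_nearP_gt {P Q : E} (hP : IsNearP M v s P) (hQ : IsNearP M v s Q)
    (h : v (M.X P) * v (M.X Q) < v β) :
    IsNearM M v s (P + Q) ∧ v (M.X (P + Q)) * (v (M.X P) * v (M.X Q)) = v β ^ 2 := by
  obtain ⟨h0, hI, hF⟩ := nearPP_identities M v hα hβ h2 s hs hP hQ
  obtain ⟨hX3, hτ3⟩ := nearPP_core_gt v hα hβ h2 s hs hP.1.2 hQ.1.2 hP.2 hQ.2 hI hF h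
  refine ⟨⟨⟨h0, ?_, ?_⟩, hτ3⟩, hX3⟩
  · by_contra hcon
    rw [not_lt] at hcon
    have hβpos : 0 < v β := lt_of_le_of_lt zero_le h
    have hlt : v (M.X (P + Q)) * (v (M.X P) * v (M.X Q)) < v β ^ 2 := by
      calc v (M.X (P + Q)) * (v (M.X P) * v (M.X Q))
          ≤ v β * (v (M.X P) * v (M.X Q)) := by gcongr
        _ < v β * v β := mul_lt_mul_of_pos_left h hβpos
        _ = v β ^ 2 := (sq _).symm
    exact hlt.ne hX3
  · by_contra hcon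
    rw [not_lt] at hcon
    have h1 : v β ^ 2 < v (M.X P) * v (M.X Q) := by
      rw [sq]
      exact mul_lt_mul'' hP.1.2.1 hQ.1.2.1 zero_le zero_le
    have h3 : v (M.X P) * v (M.X Q) ≤ v (M.X (P + Q)) * (v (M.X P) * v (M.X Q)) := by
      calc v (M.X P) * v (M.X Q) = 1 * (v (M.X P) * v (M.X Q)) := (one_mul _).symm
        _ ≤ v (M.X (P + Q)) * (v (M.X P) * v (M.X Q)) := by gcongr
    rw [hX3] at h3
    exact (not_lt.mpr h3) h1

theorem nearP_add_nearP_eq {P Q : E} (hP : IsNearP M v s P) (hQ : IsNearP M v s Q)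
    (h : v (M.X P) * v (M.X Q) = v β) : IsFar M v (P + Q) := by
  obtain ⟨h0, hI, -⟩ := nearPP_identities M v hα hβ h2 s hs hP hQ
  exact ⟨h0, nearPP_core_eq v hα hβ h2 s hs hP.1.2 hQ.1.2 hP.2 hQ.2 hI h⟩

/-- **Theorem C** for two near₊ points -/
theorem comp_add_nearP_nearP (hβ0 : β ≠ 0) {P Q : E} (hP : IsNearP M v s P)
    (hQ : IsNearP M v s Q) :
    comp M v s (P + Q) = cls v β (M.X P) * cls v β (M.X Q) := by
  have hXP : M.X P ≠ 0 := X_ne_zero_of_isNear M v hβ hP.1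
  have hXQ : M.X Q ≠ 0 := X_ne_zero_of_isNear M v hβ hQ.1
  have hXPQ : M.X P * M.X Q ≠ 0 := mul_ne_zero hXP hXQ
  rw [← cls_mul v β hXP hXQ]
  rcases lt_trichotomy (v (M.X P) * v (M.X Q)) (v β) with h | h | h
  · obtain ⟨hN, hX3⟩ := nearP_add_nearP_gt M v hα hβ h2 s hs hP hQ h
    rw [comp_of_isNearM M v hα hβ h2 s hs hN]
    have hX3' : M.X (P + Q) ≠ 0 := X_ne_zero_of_isNear M v hβ hN.1
    exact cls_inv_eq_of_mul_eq v β hX3' hXPQ hβ0 (by rw [map_mul]; exact hX3)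
  · have hF := nearP_add_nearP_eq M v hα hβ h2 s hs hP hQ h
    rw [comp_of_isFar M v hα hβ h2 s hs hF]
    exact cls_eq_of_v_eq v β hβ0 hXPQ (by rw [map_mul]; exact h.symm)
  · obtain ⟨hN, hX3⟩ := nearP_add_nearP_lt M v hα hβ h2 s hs hP hQ h
    rw [comp_of_isNearP M v hα hβ h2 s hs hN]
    have hX3' : M.X (P + Q) ≠ 0 := X_ne_zero_of_isNear M v hβ hN.1
    exact cls_eq_of_v_eq v β hX3' hXPQ (by rw [map_mul]; exact hX3)

end Fermat.Agent.S05L
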