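import Fermat.Agent.S05L.Types

/-!
# S05 package, part 1d: the `T0`-translation rule for the component map

(statements frozen)  Setting: `v α = 1`, `v β < 1`, `v 2 = 1`, `s² = -α`, `β ≠ 0`.
-/

set_option autoImplicit false
set_option linter.unusedSectionVars false

namespace Fermat.Agent.S05L

variable {L : Type*} [Field L] {α β : L} {E : Type*} [AddCommGroup E] (M : LegModel L α β E)
  {Γ₀ : Type*} [LinearOrderedCommGroupWithZero Γ₀] (v : Valuation L Γ₀)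
  (hα : v α = 1) (hβ : v β < 1) (h2 : v (2 : L) = 1) (s : L) (hs : s ^ 2 = -α)
include hα hβ h2 hs

/-! ### auxiliary facts -/

omit hβ h2 hs in
/-- `α` is nonzero, being a unit for `v`. -/
theorem TypesT0_aux_α_ne_zero : α ≠ 0 := by
  intro h0
  rw [h0, map_zero] at hα
  exact zero_ne_one hα

omit hβ h2 hs in
/-- the valuation of `X (P + T0) = -αβ / X P` is `v β / v (X P)`. -/
theorem TypesT0_aux_v_X_add_T0 {P : E} (hP : P ≠ 0) (hX : M.X P ≠ 0) :
    v (M.X (P + M.T0)) = v β / v (M.X P) := by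
  rw [M.X_add_T0 hP hX, map_div₀, Valuation.map_neg, map_mul, hα, one_mul]

/-! ### translation by `T0` -/

theorem isFar_add_T0_of_inE0 (hβ0 : β ≠ 0) {P : E} (h : InE0 M v P) : IsFar M v (P + M.T0) := by
  have _ := hβ0
  by_cases hP : P = 0
  · rw [hP, zero_add]
    exact isFar_T0 M v hβ
  · rcases h with h | h
    · exact absurd h hP
    · have hvX : 0 < v (M.X P) := lt_of_lt_of_le zero_lt_one h
      have hX : M.X P ≠ 0 := (Valuation.ne_zero_iff v).1 hvX.ne'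
      refine ⟨M.add_T0_ne_zero hP hX, ?_⟩
      rw [TypesT0_aux_v_X_add_T0 M v hα hP hX, div_le_iff₀ hvX]
      exact le_mul_of_one_le_right' h

theorem inE0_add_T0_of_isFar (hβ0 : β ≠ 0) {P : E} (h : IsFar M v P) : InE0 M v (P + M.T0) := by
  have _ := hβ0
  obtain ⟨hP, hle⟩ := h
  by_cases hX : M.X P = 0
  · left
    rw [M.eq_T0_of_X_eq_zero hP hX]
    exact M.T0_add_T0
  · right
    have hvX : 0 < v (M.X P) := zero_lt_iff.2 ((Valuation.ne_zero_iff v).2 hX)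
    rw [TypesT0_aux_v_X_add_T0 M v hα hP hX, le_div_iff₀ hvX, one_mul]
    exact hle

theorem isNearM_add_T0 (hβ0 : β ≠ 0) {P : E} (h : IsNearP M v s P) :
    IsNearM M v s (P + M.T0) ∧ v (M.X (P + M.T0)) * v (M.X P) = v β := by
  obtain ⟨⟨hP, h1, h1'⟩, hτ⟩ := h
  have hαβ : α * β ≠ 0 := mul_ne_zero (TypesT0_aux_α_ne_zero v hα) hβ0
  have hvβ : 0 < v β := zero_lt_iff.2 ((Valuation.ne_zero_iff v).2 hβ0)
  have hvX : 0 < v (M.X P) := lt_trans hvβ h1
  have hX : M.X P ≠ 0 := (Valuation.ne_zero_iff v).1 hvX.ne'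
  have hvX' := TypesT0_aux_v_X_add_T0 M v hα hP hX
  refine ⟨⟨⟨M.add_T0_ne_zero hP hX, ?_, ?_⟩, ?_⟩, ?_⟩
  · rw [hvX', lt_div_iff₀ hvX]
    calc v β * v (M.X P) < v β * 1 := mul_lt_mul_of_pos_left h1' hvβ
      _ = v β := mul_one _
  · rw [hvX', div_lt_iff₀ hvX, one_mul]
    exact h1
  · rw [M.τ_add_T0 hαβ hP hX, show -M.τ P + s = -(M.τ P - s) by ring, Valuation.map_neg]
    exact hτ
  · rw [hvX', div_mul_cancel₀ _ hvX.ne']

theorem isNearP_add_T0 (hβ0 : β ≠ 0) {P : E} (h : IsNearM M v s P) :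
    IsNearP M v s (P + M.T0) ∧ v (M.X (P + M.T0)) * v (M.X P) = v β := by
  obtain ⟨⟨hP, h1, h1'⟩, hτ⟩ := h
  have hαβ : α * β ≠ 0 := mul_ne_zero (TypesT0_aux_α_ne_zero v hα) hβ0
  have hvβ : 0 < v β := zero_lt_iff.2 ((Valuation.ne_zero_iff v).2 hβ0)
  have hvX : 0 < v (M.X P) := lt_trans hvβ h1
  have hX : M.X P ≠ 0 := (Valuation.ne_zero_iff v).1 hvX.ne'
  have hvX' := TypesT0_aux_v_X_add_T0 M v hα hP hX
  refine ⟨⟨⟨M.add_T0_ne_zero hP hX, ?_, ?_⟩, ?_⟩, ?_⟩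
  · rw [hvX', lt_div_iff₀ hvX]
    calc v β * v (M.X P) < v β * 1 := mul_lt_mul_of_pos_left h1' hvβ
      _ = v β := mul_one _
  · rw [hvX', div_lt_iff₀ hvX, one_mul]
    exact h1
  · rw [M.τ_add_T0 hαβ hP hX, show -M.τ P - s = -(M.τ P + s) by ring, Valuation.map_neg]
    exact hτ
  · rw [hvX', div_mul_cancel₀ _ hvX.ne']

/-- the `T0`-translation rule -/
theorem comp_add_T0 (hβ0 : β ≠ 0) (P : E) :
    comp M v s (P + M.T0) = comp M v s P * cls v β β := by
  rcases type_cases M v P with h | h | h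
  · rw [comp_of_inE0 M v hα hβ h2 s hs h, one_mul]
    exact comp_of_isFar M v hα hβ h2 s hs (isFar_add_T0_of_inE0 M v hα hβ h2 s hs hβ0 h)
  · have hX : M.X P ≠ 0 := X_ne_zero_of_isNear M v hβ h
    rcases isNear_sign M v hα hβ h2 s hs h with hn | hn
    · obtain ⟨h', hv⟩ := isNearM_add_T0 M v hα hβ h2 s hs hβ0 hn
      have hX' : M.X (P + M.T0) ≠ 0 := X_ne_zero_of_isNear M v hβ h'.1
      have key : cls v β (M.X (P + M.T0)) * cls v β (M.X P) = cls v β β := by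
        rw [← cls_mul v β hX' hX]
        exact cls_eq_of_v_eq v β (mul_ne_zero hX' hX) hβ0 (by rw [map_mul, hv])
      rw [comp_of_isNearP M v hα hβ h2 s hs hn, comp_of_isNearM M v hα hβ h2 s hs h',
        eq_mul_inv_of_mul_eq key, mul_inv_rev, inv_inv, cls_β_inv]
    · obtain ⟨h', hv⟩ := isNearP_add_T0 M v hα hβ h2 s hs hβ0 hn
      have hX' : M.X (P + M.T0) ≠ 0 := X_ne_zero_of_isNear M v hβ h'.1
      have key : cls v β (M.X (P + M.T0)) * cls v β (M.X P) = cls v β β := by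
        rw [← cls_mul v β hX' hX]
        exact cls_eq_of_v_eq v β (mul_ne_zero hX' hX) hβ0 (by rw [map_mul, hv])
      rw [comp_of_isNearM M v hα hβ h2 s hs hn, comp_of_isNearP M v hα hβ h2 s hs h',
        eq_mul_inv_of_mul_eq key, mul_comm]
  · rw [comp_of_isFar M v hα hβ h2 s hs h,
      comp_of_inE0 M v hα hβ h2 s hs (inE0_add_T0_of_isFar M v hα hβ h2 s hs hβ0 h)]
    exact (cls_β_mul_self v β).symm


end Fermat.Agent.S05L
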