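import Fermat.Agent.S05L.CompE0
import Fermat.Agent.S05L.CompNear
import Fermat.Agent.S05L.CompMixed
import Fermat.Agent.S05L.TypesT0

/-!
# S05 package, part 1d: Theorem C (the component map is a homomorphism)

(statements frozen)
-/

set_option autoImplicit false

namespace Fermat.Agent.S05L

variable {L : Type*} [Field L] {α β : L} {E : Type*} [AddCommGroup E] (M : LegModel L α β E)
  {Γ₀ : Type*} [LinearOrderedCommGroupWithZero Γ₀] (v : Valuation L Γ₀)
  (hα : v α = 1) (hβ : v β < 1) (h2 : v (2 : L) = 1) (s : L) (hs : s ^ 2 = -α) (hβ0 : β ≠ 0)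
include hα hβ h2 hs hβ0

/-- auxiliary form of `exists_inE0_add_T0_of_isFar`, stated early so that it can be used in
`comp_add_of_inE0` -/
theorem cmn_exists_inE0_add_T0_of_isFar {P : E} (hP : IsFar M v P) :
    ∃ R : E, InE0 M v R ∧ P = R + M.T0 := by
  refine ⟨P + M.T0, inE0_add_T0_of_isFar M v hα hβ h2 s hs hβ0 hP, ?_⟩
  rw [add_assoc, M.T0_add_T0, add_zero]

/-- adding a point of `E₀` does not change the component -/
theorem comp_add_of_inE0 {P : E} (hP : InE0 M v P) (Q : E) :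
    comp M v s (P + Q) = comp M v s Q := by
  rcases type_cases M v Q with hQ | hQ | hQ
  · -- `Q ∈ E₀`: both sides are `1`
    rw [comp_of_inE0 M v hα hβ h2 s hs (inE0_add M v hα hβ h2 hP hQ),
      comp_of_inE0 M v hα hβ h2 s hs hQ]
  · -- `Q` near: `P + Q` is near with the same sign and `v X(P + Q) = v X(Q)`
    rcases isNear_sign M v hα hβ h2 s hs hQ with hQ' | hQ'
    · obtain ⟨h1, h3⟩ := isNearP_add_of_inE0 M v hα hβ h2 s hs hP hQ'
      rw [comp_of_isNearP M v hα hβ h2 s hs h1, comp_of_isNearP M v hα hβ h2 s hs hQ']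
      exact cls_eq_of_v_eq v β (X_ne_zero_of_isNear M v hβ h1.1)
        (X_ne_zero_of_isNear M v hβ hQ) h3
    · obtain ⟨h1, h3⟩ := isNearM_add_of_inE0 M v hα hβ h2 s hs hP hQ'
      rw [comp_of_isNearM M v hα hβ h2 s hs h1, comp_of_isNearM M v hα hβ h2 s hs hQ',
        cls_eq_of_v_eq v β (X_ne_zero_of_isNear M v hβ h1.1)
          (X_ne_zero_of_isNear M v hβ hQ) h3]
  · -- `Q` far: `Q = R + T0` with `R ∈ E₀`, and `P + Q = (P + R) + T0` with `P + R ∈ E₀`
    obtain ⟨R, hR, rfl⟩ := cmn_exists_inE0_add_T0_of_isFar M v hα hβ h2 s hs hβ0 hQ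
    rw [← add_assoc, comp_add_T0 M v hα hβ h2 s hs hβ0, comp_add_T0 M v hα hβ h2 s hs hβ0,
      comp_of_inE0 M v hα hβ h2 s hs (inE0_add M v hα hβ h2 hP hR),
      comp_of_inE0 M v hα hβ h2 s hs hR]

/-- every far point is `R + T0` with `R ∈ E₀` -/
theorem exists_inE0_add_T0_of_isFar {P : E} (hP : IsFar M v P) :
    ∃ R : E, InE0 M v R ∧ P = R + M.T0 := by
  exact cmn_exists_inE0_add_T0_of_isFar M v hα hβ h2 s hs hβ0 hP

/-- Theorem C when the first point is far: `P = R + T0` with `R ∈ E₀`, so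
`comp (P + Q) = comp ((R + Q) + T0) = comp Q * [β]` and `comp P = [β]`. -/
theorem cmn_comp_add_of_isFar {P : E} (hP : IsFar M v P) (Q : E) :
    comp M v s (P + Q) = comp M v s P * comp M v s Q := by
  obtain ⟨R, hR, rfl⟩ := cmn_exists_inE0_add_T0_of_isFar M v hα hβ h2 s hs hβ0 hP
  have h1 : R + M.T0 + Q = (R + Q) + M.T0 := by abel
  rw [h1, comp_add_T0 M v hα hβ h2 s hs hβ0, comp_add_T0 M v hα hβ h2 s hs hβ0,
    comp_add_of_inE0 M v hα hβ h2 s hs hβ0 hR Q, comp_of_inE0 M v hα hβ h2 s hs hR, one_mul,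
    mul_comm]

/-- Theorem C for two near₊ points, in terms of `comp` -/
theorem cmn_comp_add_nearP_nearP {P Q : E} (hP : IsNearP M v s P) (hQ : IsNearP M v s Q) :
    comp M v s (P + Q) = comp M v s P * comp M v s Q := by
  rw [comp_add_nearP_nearP M v hα hβ h2 s hs hβ0 hP hQ, comp_of_isNearP M v hα hβ h2 s hs hP,
    comp_of_isNearP M v hα hβ h2 s hs hQ]

/-- Theorem C for two near₋ points, in terms of `comp` (apply the near₊ case to `-P`, `-Q`) -/
theorem cmn_comp_add_nearM_nearM {P Q : E} (hP : IsNearM M v s P) (hQ : IsNearM M v s Q) :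
    comp M v s (P + Q) = comp M v s P * comp M v s Q := by
  have hP' := isNearP_neg M v hα hβ h2 s hs hP
  have hQ' := isNearP_neg M v hα hβ h2 s hs hQ
  have h := cmn_comp_add_nearP_nearP M v hα hβ h2 s hs hβ0 hP' hQ'
  have h' : comp M v s (P + Q) = (comp M v s (-P + -Q))⁻¹ := by
    rw [← comp_neg M v hα hβ h2 s hs, neg_add, neg_neg, neg_neg]
  rw [h', h, comp_neg M v hα hβ h2 s hs, comp_neg M v hα hβ h2 s hs, mul_inv, inv_inv, inv_inv]

/-- Theorem C for two near points -/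
theorem cmn_comp_add_near_near {P Q : E} (hP : IsNear M v P) (hQ : IsNear M v Q) :
    comp M v s (P + Q) = comp M v s P * comp M v s Q := by
  rcases isNear_sign M v hα hβ h2 s hs hP with hP' | hP' <;>
    rcases isNear_sign M v hα hβ h2 s hs hQ with hQ' | hQ'
  · -- (near₊, near₊)
    exact cmn_comp_add_nearP_nearP M v hα hβ h2 s hs hβ0 hP' hQ'
  · -- (near₊, near₋)
    rw [comp_add_nearP_nearM M v hα hβ h2 s hs hP' hQ', comp_of_isNearP M v hα hβ h2 s hs hP',
      comp_of_isNearM M v hα hβ h2 s hs hQ']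
  · -- (near₋, near₊)
    rw [add_comm, comp_add_nearP_nearM M v hα hβ h2 s hs hQ' hP',
      comp_of_isNearM M v hα hβ h2 s hs hP', comp_of_isNearP M v hα hβ h2 s hs hQ', mul_comm]
  · -- (near₋, near₋)
    exact cmn_comp_add_nearM_nearM M v hα hβ h2 s hs hβ0 hP' hQ'

/-- **Theorem C** -/
theorem comp_add (P Q : E) : comp M v s (P + Q) = comp M v s P * comp M v s Q := by
  rcases type_cases M v P with hP | hP | hP
  · -- `P ∈ E₀`
    rw [comp_add_of_inE0 M v hα hβ h2 s hs hβ0 hP Q, comp_of_inE0 M v hα hβ h2 s hs hP, one_mul]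
  · rcases type_cases M v Q with hQ | hQ | hQ
    · -- `Q ∈ E₀`
      rw [add_comm, comp_add_of_inE0 M v hα hβ h2 s hs hβ0 hQ P,
        comp_of_inE0 M v hα hβ h2 s hs hQ, mul_one]
    · -- both near
      exact cmn_comp_add_near_near M v hα hβ h2 s hs hβ0 hP hQ
    · -- `Q` far
      rw [add_comm, cmn_comp_add_of_isFar M v hα hβ h2 s hs hβ0 hQ P, mul_comm]
  · -- `P` far
    exact cmn_comp_add_of_isFar M v hα hβ h2 s hs hβ0 hP Q

theorem comp_nsmul (n : ℕ) (P : E) : comp M v s (n • P) = comp M v s P ^ n := by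
  induction n with
  | zero =>
    rw [zero_nsmul, pow_zero]
    exact comp_of_inE0 M v hα hβ h2 s hs (Or.inl rfl)
  | succ n ih =>
    rw [succ_nsmul, pow_succ, comp_add M v hα hβ h2 s hs hβ0, ih]

end Fermat.Agent.S05L
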