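import Fermat.Agent.S05L.Types

/-!
# S05 package, part 1d (Theorem C): near₊ + near₊, pure valuation cores

(statements frozen)  Setting: `v α = 1`, `v β < 1`, `v 2 = 1`, `s² = -α`.
Multiplicative valuations: "ord(X₁X₂) < ord β" is `v β < v X₁ * v X₂`.
-/

set_option autoImplicit false

namespace Fermat.Agent.S05L

variable {L : Type*} [Field L] {α β : L} {E : Type*} [AddCommGroup E] (M : LegModel L α β E)
  {Γ₀ : Type*} [LinearOrderedCommGroupWithZero Γ₀] (v : Valuation L Γ₀)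
  (hα : v α = 1) (hβ : v β < 1) (h2 : v (2 : L) = 1) (s : L) (hs : s ^ 2 = -α)
include hα hβ h2 hs

/-- facts shared by the three cores: `τ₁ + τ₂` and `τ₁` are units, `X₁`, `X₂` are nonzero,
and `v (α * β) = v β`. -/
theorem CompNearCore_aux_common {X₁ X₂ τ₁ τ₂ : L}
    (h1 : v β < v X₁ ∧ v X₁ < 1) (h2' : v β < v X₂ ∧ v X₂ < 1)
    (ht1 : v (τ₁ - s) < 1) (ht2 : v (τ₂ - s) < 1) :
    v (τ₁ + τ₂) = 1 ∧ v τ₁ = 1 ∧ 0 < v X₁ ∧ 0 < v X₂ ∧ v (α * β) = v β := by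
  -- `hβ` is implied by `h1` here; it is kept so that all lemmas of this file share one signature
  have _hβ : v β ≤ 1 := hβ.le
  have hvs : v s = 1 := by
    have hsq : v s ^ 2 = 1 := by rw [← map_pow, hs, v.map_neg, hα]
    exact (pow_eq_one_iff_of_nonneg zero_le two_ne_zero).mp hsq
  refine ⟨?_, ?_, ?_, ?_, ?_⟩
  · have h2s : v (2 * s) = 1 := by rw [map_mul, h2, hvs, one_mul]
    have hsum : v ((τ₁ - s) + (τ₂ - s)) < 1 := v.map_add_lt ht1 ht2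
    have key : v (2 * s + ((τ₁ - s) + (τ₂ - s))) = v (2 * s) :=
      v.map_add_eq_of_lt_left (by rw [h2s]; exact hsum)
    have e : 2 * s + ((τ₁ - s) + (τ₂ - s)) = τ₁ + τ₂ := by ring
    rw [e, h2s] at key
    exact key
  · have key : v (s + (τ₁ - s)) = v s := v.map_add_eq_of_lt_left (by rw [hvs]; exact ht1)
    have e : s + (τ₁ - s) = τ₁ := by ring
    rw [e, hvs] at key
    exact key
  · exact lt_of_le_of_lt zero_le h1.1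
  · exact lt_of_le_of_lt zero_le h2'.1
  · rw [map_mul, hα, one_mul]

/-- pure field/valuation core of the case `v β < v X₁ * v X₂`: from (I1τ) and (F3) -/
theorem nearPP_core_lt {X₁ X₂ X₃ τ₁ τ₂ τ₃ : L}
    (h1 : v β < v X₁ ∧ v X₁ < 1) (h2' : v β < v X₂ ∧ v X₂ < 1)
    (ht1 : v (τ₁ - s) < 1) (ht2 : v (τ₂ - s) < 1)
    (hI : X₁ * X₂ * X₃ * (τ₁ + τ₂) ^ 2 = (X₁ * X₂ + α * β) ^ 2)
    (hF : X₁ * X₂ + α * β ≠ 0 → τ₃ = -τ₁ - (X₁ * X₂ + α * β) / (X₁ * (τ₁ + τ₂))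
      + (τ₁ + τ₂) * (X₁ * X₂) / (X₁ * X₂ + α * β))
    (h : v β < v X₁ * v X₂) :
    v X₃ = v X₁ * v X₂ ∧ v (τ₃ - s) < 1 := by
  obtain ⟨hsum, -, hX₁, hX₂, hαβ⟩ := CompNearCore_aux_common v hα hβ h2 s hs h1 h2' ht1 ht2
  have hX₁0 : X₁ ≠ 0 := v.pos_iff.mp hX₁
  have hsum0 : τ₁ + τ₂ ≠ 0 := by
    intro h0
    rw [h0, map_zero] at hsum
    exact zero_ne_one hsum
  have hX₁₂ : v (X₁ * X₂) = v X₁ * v X₂ := map_mul _ _ _
  have hpos : 0 < v X₁ * v X₂ := mul_pos hX₁ hX₂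
  have hδ : v (X₁ * X₂ + α * β) = v X₁ * v X₂ := by
    rw [v.map_add_eq_of_lt_left (by rw [hαβ, hX₁₂]; exact h), hX₁₂]
  have hδ0 : X₁ * X₂ + α * β ≠ 0 := by
    rw [← v.pos_iff, hδ]
    exact hpos
  have hvI := congrArg v hI
  simp only [map_mul, map_pow, hsum, one_pow, mul_one] at hvI
  rw [hδ] at hvI
  have hX₃ : v X₃ = v X₁ * v X₂ := by
    apply mul_left_cancel₀ hpos.ne'
    rw [hvI, sq]
  refine ⟨hX₃, ?_⟩
  have e : τ₃ - s = (τ₂ - s) - (X₁ * X₂ + α * β) / (X₁ * (τ₁ + τ₂))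
      - (τ₁ + τ₂) * (α * β) / (X₁ * X₂ + α * β) := by
    rw [hF hδ0]
    field_simp
    ring
  rw [e]
  refine v.map_sub_lt (v.map_sub_lt ht2 ?_) ?_
  · rw [map_div₀, hδ, map_mul, hsum, mul_one, mul_comm, mul_div_cancel_right₀ _ hX₁.ne']
    exact h2'.2
  · rw [map_div₀, map_mul, hsum, one_mul, hαβ, hδ]
    exact (div_lt_one₀ hpos).mpr h

/-- core of the case `v X₁ * v X₂ < v β` -/
theorem nearPP_core_gt {X₁ X₂ X₃ τ₁ τ₂ τ₃ : L}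
    (h1 : v β < v X₁ ∧ v X₁ < 1) (h2' : v β < v X₂ ∧ v X₂ < 1)
    (ht1 : v (τ₁ - s) < 1) (ht2 : v (τ₂ - s) < 1)
    (hI : X₁ * X₂ * X₃ * (τ₁ + τ₂) ^ 2 = (X₁ * X₂ + α * β) ^ 2)
    (hF : X₁ * X₂ + α * β ≠ 0 → τ₃ = -τ₁ - (X₁ * X₂ + α * β) / (X₁ * (τ₁ + τ₂))
      + (τ₁ + τ₂) * (X₁ * X₂) / (X₁ * X₂ + α * β))
    (h : v X₁ * v X₂ < v β) :
    v X₃ * (v X₁ * v X₂) = v β ^ 2 ∧ v (τ₃ + s) < 1 := by
  obtain ⟨hsum, -, hX₁, -, hαβ⟩ := CompNearCore_aux_common v hα hβ h2 s hs h1 h2' ht1 ht2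
  have hX₁₂ : v (X₁ * X₂) = v X₁ * v X₂ := map_mul _ _ _
  have hβpos : 0 < v β := lt_of_le_of_lt zero_le h
  have hδ : v (X₁ * X₂ + α * β) = v β := by
    rw [v.map_add_eq_of_lt_right (by rw [hαβ, hX₁₂]; exact h), hαβ]
  have hδ0 : X₁ * X₂ + α * β ≠ 0 := by
    rw [← v.pos_iff, hδ]
    exact hβpos
  have hvI := congrArg v hI
  simp only [map_mul, map_pow, hsum, one_pow, mul_one] at hvI
  rw [hδ] at hvI
  refine ⟨by rw [mul_comm]; exact hvI, ?_⟩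
  have e : τ₃ + s = -(τ₁ - s) - (X₁ * X₂ + α * β) / (X₁ * (τ₁ + τ₂))
      + (τ₁ + τ₂) * (X₁ * X₂) / (X₁ * X₂ + α * β) := by
    rw [hF hδ0]
    ring
  rw [e]
  refine v.map_add_lt (v.map_sub_lt (by rw [v.map_neg]; exact ht1) ?_) ?_
  · rw [map_div₀, hδ, map_mul, hsum, mul_one]
    exact (div_lt_one₀ hX₁).mpr h1.1
  · rw [map_div₀, map_mul, hsum, one_mul, hX₁₂, hδ]
    exact (div_lt_one₀ hβpos).mpr h

/-- core of the case `v X₁ * v X₂ = v β` -/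
theorem nearPP_core_eq {X₁ X₂ X₃ τ₁ τ₂ : L}
    (h1 : v β < v X₁ ∧ v X₁ < 1) (h2' : v β < v X₂ ∧ v X₂ < 1)
    (ht1 : v (τ₁ - s) < 1) (ht2 : v (τ₂ - s) < 1)
    (hI : X₁ * X₂ * X₃ * (τ₁ + τ₂) ^ 2 = (X₁ * X₂ + α * β) ^ 2)
    (h : v X₁ * v X₂ = v β) :
    v X₃ ≤ v β := by
  obtain ⟨hsum, -, hX₁, hX₂, hαβ⟩ := CompNearCore_aux_common v hα hβ h2 s hs h1 h2' ht1 ht2
  have hX₁₂ : v (X₁ * X₂) = v X₁ * v X₂ := map_mul _ _ _
  have hβpos : 0 < v β := by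
    rw [← h]
    exact mul_pos hX₁ hX₂
  have hδ : v (X₁ * X₂ + α * β) ≤ v β :=
    v.map_add_le (by rw [hX₁₂, h]) (by rw [hαβ])
  have hvI := congrArg v hI
  simp only [map_mul, map_pow, hsum, one_pow, mul_one] at hvI
  rw [h] at hvI
  have hle : v β * v X₃ ≤ v β * v β := by
    rw [hvI, ← sq]
    exact pow_le_pow_left₀ zero_le hδ 2
  exact le_of_mul_le_mul_left hle hβpos

end Fermat.Agent.S05L
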