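import Fermat.Agent.S05L.E1a

/-!
# S05 package, part 1a (second half): `E₁` is a subgroup without `n`-torsion for `n` a unit

(statements frozen)  Valuations are multiplicative: `X ∉ 𝒱` is `1 < v X`.
-/

set_option autoImplicit false

namespace Fermat.Agent.S05L

variable {L : Type*} [Field L] {α β : L} {E : Type*} [AddCommGroup E] (M : LegModel L α β E)
  {Γ₀ : Type*} [LinearOrderedCommGroupWithZero Γ₀] (v : Valuation L Γ₀)
  (hα : v α ≤ 1) (hβ : v β ≤ 1)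
include hα hβ

omit hα hβ in
/-- a product of an integral element and two elements of the maximal ideal lies in the
maximal ideal -/
theorem E1_aux_mul_lt_one {ρ z₁ z₂ : L} (hρ : v ρ ≤ 1) (h1 : v z₁ < 1) (h2 : v z₂ < 1) :
    v (ρ * z₁ * z₂) < 1 := by
  rw [map_mul, map_mul]
  have h3 : v ρ * v z₁ ≤ 1 := mul_le_one' hρ h1.le
  calc v ρ * v z₁ * v z₂ ≤ 1 * v z₂ := mul_le_mul_left h3 (v z₂)
    _ = v z₂ := one_mul _
    _ < 1 := h2

omit hα hβ in
/-- the formal-group shape: from `z₃ (1 + ρ z₁ z₂) = z₁ + z₂` with `ρ` integral and `z₁, z₂` in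
the maximal ideal one gets `z₃ = z₁ + z₂ + z₁ z₂ (z₁ + z₂) w` with `w` integral. -/
theorem E1_aux_formal {z₁ z₂ z₃ ρ : L} (hρ : v ρ ≤ 1) (h1 : v z₁ < 1) (h2 : v z₂ < 1)
    (h : z₃ * (1 + ρ * z₁ * z₂) = z₁ + z₂) :
    ∃ w : L, v w ≤ 1 ∧ z₃ = z₁ + z₂ + z₁ * z₂ * (z₁ + z₂) * w := by
  have hlt : v (ρ * z₁ * z₂) < 1 := E1_aux_mul_lt_one v hρ h1 h2
  have hd : v (1 + ρ * z₁ * z₂) = 1 := Valuation.map_one_add_of_lt v hlt
  have hd0 : 1 + ρ * z₁ * z₂ ≠ 0 := by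
    intro h0
    rw [h0, map_zero] at hd
    exact zero_ne_one hd
  have hw : -ρ / (1 + ρ * z₁ * z₂) * (1 + ρ * z₁ * z₂) = -ρ := div_mul_cancel₀ _ hd0
  refine ⟨-ρ / (1 + ρ * z₁ * z₂), ?_, ?_⟩
  · rw [map_div₀, hd, div_one, Valuation.map_neg]
    exact hρ
  · apply mul_right_cancel₀ hd0
    linear_combination h - z₁ * z₂ * (z₁ + z₂) * hw

omit hα hβ in
/-- zero is integral -/
theorem E1_aux_v_zero_le_one : v (0 : L) ≤ 1 := by
  rw [map_zero]
  exact zero_le_one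

/-- `E₁` is closed under addition. -/
theorem inE1_add (h2 : (2 : L) ≠ 0) {P Q : E} (hP : InE1 M v P) (hQ : InE1 M v Q) :
    InE1 M v (P + Q) := by
  by_cases hP0 : P = 0
  · rw [hP0, zero_add]
    exact hQ
  by_cases hQ0 : Q = 0
  · rw [hQ0, add_zero]
    exact hP
  have hPv : 1 < v (M.X P) := hP.resolve_left hP0
  have hQv : 1 < v (M.X Q) := hQ.resolve_left hQ0
  by_cases hX : M.X P = M.X Q
  · rcases M.eq_or_eq_neg_of_X_eq hP0 hQ0 hX with h | h
    · rw [← h]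
      exact Or.inr (inE1_dbl M v hα hβ h2 hP0 hPv).2.1
    · rw [h, neg_add_cancel]
      exact inE1_zero M v
  · exact Or.inr (inE1_add_of_X_ne M v hα hβ hP0 hQ0 hPv hQv hX).1

theorem inE1_sub (h2 : (2 : L) ≠ 0) {P Q : E} (hP : InE1 M v P) (hQ : InE1 M v Q) :
    InE1 M v (P - Q) := by
  rw [sub_eq_add_neg]
  exact inE1_add M v hα hβ h2 hP (inE1_neg M v hQ)

/-- the formal-group congruence: `z(P+Q) = z(P) + z(Q) + z(P) z(Q) (z(P)+z(Q)) w`, `w` integral. -/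
theorem zc_add (h2 : (2 : L) ≠ 0) {P Q : E} (hP : InE1 M v P) (hQ : InE1 M v Q) :
    ∃ w : L, v w ≤ 1 ∧
      zc M (P + Q) = zc M P + zc M Q + zc M P * zc M Q * (zc M P + zc M Q) * w := by
  by_cases hP0 : P = 0
  · refine ⟨0, E1_aux_v_zero_le_one v, ?_⟩
    rw [hP0, zero_add, zc_zero]
    ring
  by_cases hQ0 : Q = 0
  · refine ⟨0, E1_aux_v_zero_le_one v, ?_⟩
    rw [hQ0, add_zero, zc_zero]
    ring
  have hPv : 1 < v (M.X P) := hP.resolve_left hP0
  have hQv : 1 < v (M.X Q) := hQ.resolve_left hQ0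
  have hz1 : v (zc M P) < 1 := zc_lt_one M v hα hβ hP
  have hz2 : v (zc M Q) < 1 := zc_lt_one M v hα hβ hQ
  by_cases hX : M.X P = M.X Q
  · rcases M.eq_or_eq_neg_of_X_eq hP0 hQ0 hX with h | h
    · rw [← h]
      obtain ⟨-, -, ρ, hρ, hρeq⟩ := inE1_dbl M v hα hβ h2 hP0 hPv
      exact E1_aux_formal v hρ hz1 hz1 hρeq
    · refine ⟨0, E1_aux_v_zero_le_one v, ?_⟩
      rw [h, neg_add_cancel, zc_zero, zc_neg M v hα hβ]
      ring
  · obtain ⟨-, ρ, hρ, hρeq⟩ := inE1_add_of_X_ne M v hα hβ hP0 hQ0 hPv hQv hX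
    exact E1_aux_formal v hρ hz1 hz2 hρeq

theorem inE1_nsmul (h2 : (2 : L) ≠ 0) {P : E} (hP : InE1 M v P) (n : ℕ) : InE1 M v (n • P) := by
  induction n with
  | zero =>
    rw [zero_nsmul]
    exact inE1_zero M v
  | succ n ih =>
    rw [succ_nsmul]
    exact inE1_add M v hα hβ h2 ih hP

/-- `z(nP) = n z(P) + z(P)³ w`, `w` integral. -/
theorem zc_nsmul (h2 : (2 : L) ≠ 0) {P : E} (hP : InE1 M v P) (n : ℕ) :
    ∃ w : L, v w ≤ 1 ∧ zc M (n • P) = (n : L) * zc M P + zc M P ^ 3 * w := by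
  induction n with
  | zero =>
    refine ⟨0, E1_aux_v_zero_le_one v, ?_⟩
    rw [zero_nsmul, zc_zero, Nat.cast_zero, zero_mul, mul_zero, add_zero]
  | succ n ih =>
    obtain ⟨w, hw, hweq⟩ := ih
    obtain ⟨w', hw', hw'eq⟩ := zc_add M v hα hβ h2 (inE1_nsmul M v hα hβ h2 hP n) hP
    have hz : zc M P ∈ v.integer :=
      (Valuation.mem_integer_iff v _).2 (zc_lt_one M v hα hβ hP).le
    have hn : (n : L) ∈ v.integer := natCast_mem _ n
    have hwi : w ∈ v.integer := (Valuation.mem_integer_iff v _).2 hw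
    have hwi' : w' ∈ v.integer := (Valuation.mem_integer_iff v _).2 hw'
    have hz2w : zc M P ^ 2 * w ∈ v.integer := mul_mem (pow_mem hz 2) hwi
    have hmem : w + ((n : L) + zc M P ^ 2 * w) * ((n : L) + 1 + zc M P ^ 2 * w) * w' ∈ v.integer :=
      add_mem hwi (mul_mem (mul_mem (add_mem hn hz2w)
        (add_mem (add_mem hn (one_mem _)) hz2w)) hwi')
    refine ⟨w + ((n : L) + zc M P ^ 2 * w) * ((n : L) + 1 + zc M P ^ 2 * w) * w',
      (Valuation.mem_integer_iff v _).1 hmem, ?_⟩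
    rw [succ_nsmul, hw'eq, hweq, Nat.cast_succ]
    ring

/-- **1a**: `E₁` has no `n`-torsion when `n` is a unit. -/
theorem inE1_eq_zero_of_nsmul_eq_zero (h2 : (2 : L) ≠ 0) {P : E} (hP : InE1 M v P) (n : ℕ)
    (hn : v (n : L) = 1) (h : n • P = 0) : P = 0 := by
  by_contra hP0
  have hz0 : zc M P ≠ 0 := zc_ne_zero M v hα hβ hP0 hP
  have hz1 : v (zc M P) < 1 := zc_lt_one M v hα hβ hP
  obtain ⟨w, hw, hweq⟩ := zc_nsmul M v hα hβ h2 hP n
  rw [h, zc_zero] at hweq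
  have h3 : zc M P * ((n : L) + zc M P ^ 2 * w) = 0 := by
    linear_combination -hweq
  have h4 : (n : L) + zc M P ^ 2 * w = 0 := (mul_eq_zero.1 h3).resolve_left hz0
  have h5 : v (zc M P ^ 2 * w) < 1 := by
    have h6 : v (w * zc M P * zc M P) < 1 := E1_aux_mul_lt_one v hw hz1 hz1
    have h7 : zc M P ^ 2 * w = w * zc M P * zc M P := by ring
    rw [h7]
    exact h6
  have h8 : v ((n : L) + zc M P ^ 2 * w) = 1 := by
    rw [Valuation.map_add_eq_of_lt_left v (by rw [hn]; exact h5), hn]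
  rw [h4, map_zero] at h8
  exact zero_ne_one h8

end Fermat.Agent.S05L
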