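import Fermat.Agent.S05L.Formulas

/-!
# S05 package, part 1a (first half): `E₁ = {0} ∪ {X ∉ 𝒱}`, the parameter `z`, chord and tangent

(statements frozen)  Valuations are multiplicative: `X ∉ 𝒱` is `1 < v X`.
-/

set_option autoImplicit false

namespace Fermat.Agent.S05L

variable {L : Type*} [Field L] {α β : L} {E : Type*} [AddCommGroup E] (M : LegModel L α β E)
  {Γ₀ : Type*} [LinearOrderedCommGroupWithZero Γ₀] (v : Valuation L Γ₀)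

/-- `P ∈ E₁` : `P = 0` or `X(P)` is not integral -/
def InE1 (P : E) : Prop := P = 0 ∨ 1 < v (M.X P)

/-- the parameter `z = X / Y = 1 / τ` (and `z(0) = 0`) -/
noncomputable def zc (P : E) : L := open Classical in if P = 0 then 0 else M.X P / M.Y P

theorem zc_zero : zc M (0 : E) = 0 := by
  unfold zc
  rw [if_pos rfl]

theorem zc_of_ne_zero {P : E} (hP : P ≠ 0) : zc M P = M.X P / M.Y P := by
  unfold zc
  rw [if_neg hP]

theorem inE1_zero : InE1 M v (0 : E) := Or.inl rfl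

theorem inE1_neg {P : E} (h : InE1 M v P) : InE1 M v (-P) := by
  rcases h with h | h
  · left; rw [h, neg_zero]
  · by_cases hP : P = 0
    · left; rw [hP, neg_zero]
    · right; rw [M.X_neg P hP]; exact h

/-! ### auxiliary facts on the value monoid -/

theorem E1a_h2_lt_one_of_sq_lt_one {a : Γ₀} (h : a ^ 2 < 1) : a < 1 := by
  by_contra hc
  exact absurd h (not_lt.mpr (one_le_pow_of_one_le' (not_lt.mp hc) 2))

theorem E1a_h2_mul_inv_le {a b : Γ₀} (ha : a ≤ 1) (hb : 1 < b) : a * b⁻¹ ≤ 1 :=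
  Left.mul_le_one ha (inv_lt_one_of_one_lt₀ hb).le

theorem E1a_h2_mul_inv_lt {a b : Γ₀} (ha : a ≤ 1) (hb : 1 < b) : a * b⁻¹ < 1 :=
  Right.mul_lt_one_of_le_of_lt ha (inv_lt_one_of_one_lt₀ hb)

theorem E1a_h2_X_ne_zero {P : E} (h : 1 < v (M.X P)) : M.X P ≠ 0 := by
  intro h0
  rw [h0, map_zero] at h
  exact absurd h (not_lt.mpr zero_le_one)

theorem E1a_h2_zc_eq_inv_τ {P : E} (hP : P ≠ 0) : zc M P = (M.τ P)⁻¹ := by
  rw [zc_of_ne_zero M hP, M.τ_def, inv_div]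

/-- a field identity: from `τ₃ (τ₁ + τ₂) = τ₁ τ₂ + ρ` to the parameters `z = 1 / τ` -/
theorem E1a_h2_field {t₁ t₂ t₃ ρ : L} (h1 : t₁ ≠ 0) (h2 : t₂ ≠ 0) (h3 : t₃ ≠ 0)
    (hZ : t₃ * (t₁ + t₂) = t₁ * t₂ + ρ) :
    t₃⁻¹ * (1 + ρ * t₁⁻¹ * t₂⁻¹) = t₁⁻¹ + t₂⁻¹ := by
  field_simp
  linear_combination -hZ

/-- pure valuation core of the chord and tangent cases -/
theorem E1a_h2_core {X₁ X₂ X₃ τ₁ τ₂ : L} (hα : v α ≤ 1) (hβ : v β ≤ 1)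
    (hX1 : 1 < v X₁) (hX2 : 1 < v X₂) (ht1 : v τ₁ ^ 2 = v X₁) (ht2 : v τ₂ ^ 2 = v X₂)
    (hI : X₁ * X₂ * X₃ * (τ₁ + τ₂) ^ 2 = (X₁ * X₂ + α * β) ^ 2)
    (hσ : τ₂ ^ 2 - X₂ = (β - α) - α * β / X₂) :
    τ₁ + τ₂ ≠ 0 ∧ X₁ * X₂ + α * β ≠ 0 ∧ 1 < v X₃ ∧
    v ((τ₂ ^ 2 - X₂) - α * β / X₁
        - (τ₁ + τ₂) ^ 2 * (α * β / (X₁ * X₂)) / (1 + α * β / (X₁ * X₂))) ≤ 1 := by
  have hαβ : v (α * β) ≤ 1 := by rw [map_mul]; exact Left.mul_le_one hα hβ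
  have h12 : 1 < v X₁ * v X₂ := Right.one_lt_mul' hX1 hX2
  have h10 : v X₁ ≠ 0 := ne_zero_of_lt hX1
  have h20 : v X₂ ≠ 0 := ne_zero_of_lt hX2
  have hsum : v (X₁ * X₂ + α * β) = v X₁ * v X₂ := by
    rw [← map_mul]
    exact v.map_add_eq_of_lt_left (lt_of_le_of_lt hαβ (by rw [map_mul]; exact h12))
  have hsum0 : X₁ * X₂ + α * β ≠ 0 := by
    intro h0
    rw [h0, map_zero] at hsum
    exact (mul_ne_zero h10 h20) hsum.symm
  have hτ : τ₁ + τ₂ ≠ 0 := by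
    intro h0
    rw [h0] at hI
    simp only [ne_eq, OfNat.ofNat_ne_zero, not_false_eq_true, zero_pow, mul_zero] at hI
    exact hsum0 (pow_eq_zero_iff two_ne_zero |>.mp hI.symm)
  have hT : v (τ₁ + τ₂) ^ 2 ≤ v X₁ ∨ v (τ₁ + τ₂) ^ 2 ≤ v X₂ := by
    rcases v.map_add' τ₁ τ₂ with h | h
    · left; rw [← ht1]; exact pow_le_pow_left' h 2
    · right; rw [← ht2]; exact pow_le_pow_left' h 2
  have hIv : v X₃ * v (τ₁ + τ₂) ^ 2 = v X₁ * v X₂ := by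
    have h := congrArg v hI
    rw [map_mul, map_mul, map_mul, map_pow, map_pow, hsum, mul_assoc] at h
    have h' : v X₁ * v X₂ * (v X₃ * v (τ₁ + τ₂) ^ 2) = v X₁ * v X₂ * (v X₁ * v X₂) := by
      rw [h]; exact pow_two _
    exact mul_left_cancel₀ (mul_ne_zero h10 h20) h'
  have h3 : 1 < v X₃ := by
    by_contra hc
    have hle : v X₃ ≤ 1 := not_lt.mp hc
    rcases hT with h | h
    · have h4 : v X₁ * v X₂ ≤ v X₁ := by
        rw [← hIv]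
        calc v X₃ * v (τ₁ + τ₂) ^ 2 ≤ 1 * v X₁ := mul_le_mul' hle h
          _ = v X₁ := one_mul _
      exact absurd h4 (not_le.mpr (lt_mul_of_one_lt_right (zero_lt_iff.mpr h10) hX2))
    · have h4 : v X₁ * v X₂ ≤ v X₂ := by
        rw [← hIv]
        calc v X₃ * v (τ₁ + τ₂) ^ 2 ≤ 1 * v X₂ := mul_le_mul' hle h
          _ = v X₂ := one_mul _
      exact absurd h4 (not_le.mpr (lt_mul_of_one_lt_left (zero_lt_iff.mpr h20) hX1))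
  refine ⟨hτ, hsum0, h3, ?_⟩
  have ht1' : v (τ₂ ^ 2 - X₂) ≤ 1 := by
    rw [hσ]
    refine v.map_sub_le (v.map_sub_le hβ hα) ?_
    rw [map_div₀, div_eq_mul_inv]
    exact E1a_h2_mul_inv_le hαβ hX2
  have ht2' : v (α * β / X₁) ≤ 1 := by
    rw [map_div₀, div_eq_mul_inv]
    exact E1a_h2_mul_inv_le hαβ hX1
  have hδ : v (α * β / (X₁ * X₂)) < 1 := by
    rw [map_div₀, map_mul v X₁ X₂, div_eq_mul_inv]
    exact E1a_h2_mul_inv_lt hαβ h12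
  have ht3' : v ((τ₁ + τ₂) ^ 2 * (α * β / (X₁ * X₂)) / (1 + α * β / (X₁ * X₂))) ≤ 1 := by
    rw [map_div₀, v.map_one_add_of_lt hδ, div_one, map_mul, map_pow, map_div₀, map_mul v X₁ X₂]
    rcases hT with h | h
    · calc v (τ₁ + τ₂) ^ 2 * (v (α * β) / (v X₁ * v X₂))
          ≤ v X₁ * (v (α * β) / (v X₁ * v X₂)) := mul_le_mul_left h _
        _ = v (α * β) * (v X₂)⁻¹ := by
            rw [← mul_div_assoc, mul_div_mul_left _ _ h10, div_eq_mul_inv]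
        _ ≤ 1 := E1a_h2_mul_inv_le hαβ hX2
    · calc v (τ₁ + τ₂) ^ 2 * (v (α * β) / (v X₁ * v X₂))
          ≤ v X₂ * (v (α * β) / (v X₁ * v X₂)) := mul_le_mul_left h _
        _ = v (α * β) * (v X₁)⁻¹ := by
            rw [← mul_div_assoc, mul_comm (v X₁) (v X₂), mul_div_mul_left _ _ h20,
              div_eq_mul_inv]
        _ ≤ 1 := E1a_h2_mul_inv_le hαβ hX1
  exact v.map_sub_le (v.map_sub_le ht1' ht2') ht3'

section

variable (hα : v α ≤ 1) (hβ : v β ≤ 1)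
include hα hβ

/-- on `E₁`: `v(τ²) = v(X)`, i.e. `v(Y²) = v(X)³` -/
theorem inE1_v_Y_sq {P : E} (hP : P ≠ 0) (h : 1 < v (M.X P)) : v (M.Y P) ^ 2 = v (M.X P) ^ 3 := by
  have h1 := congrArg v (M.eqn P hP)
  rw [map_pow, map_mul, map_mul,
    Valuation.map_sub_eq_of_lt_left v (lt_of_le_of_lt hα h),
    Valuation.map_add_eq_of_lt_left v (lt_of_le_of_lt hβ h)] at h1
  rw [h1, pow_succ, pow_two]

theorem inE1_Y_ne_zero {P : E} (hP : P ≠ 0) (h : 1 < v (M.X P)) : M.Y P ≠ 0 := by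
  intro h0
  have h1 := inE1_v_Y_sq M v hα hβ hP h
  rw [h0, map_zero, zero_pow two_ne_zero] at h1
  have h2 : v (M.X P) = 0 := by
    have := h1.symm
    exact eq_zero_of_pow_eq_zero this
  rw [h2] at h
  exact absurd h (not_lt.mpr zero_le_one)

/-- `v(τ)² = v(X)` on `E₁ ∖ {0}` -/
theorem E1a_h2_v_τ_sq {P : E} (hP : P ≠ 0) (h : 1 < v (M.X P)) :
    v (M.τ P) ^ 2 = v (M.X P) := by
  have h1 := inE1_v_Y_sq M v hα hβ hP h
  have hX0 : v (M.X P) ≠ 0 := ne_zero_of_lt h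
  rw [M.τ_def, map_div₀, div_pow, div_eq_iff (pow_ne_zero 2 hX0), h1, pow_succ]
  exact mul_comm _ _

/-- `z(P) ∈ 𝔪` for `P ∈ E₁` -/
theorem zc_lt_one {P : E} (h : InE1 M v P) : v (zc M P) < 1 := by
  by_cases hP : P = 0
  · rw [hP, zc_zero, map_zero]
    exact zero_lt_one
  · rcases h with h | h
    · exact absurd h hP
    · apply E1a_h2_lt_one_of_sq_lt_one
      rw [E1a_h2_zc_eq_inv_τ M hP, map_inv₀, inv_pow, E1a_h2_v_τ_sq M v hα hβ hP h]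
      exact inv_lt_one_of_one_lt₀ h

theorem zc_ne_zero {P : E} (hP : P ≠ 0) (h : InE1 M v P) : zc M P ≠ 0 := by
  rcases h with h | h
  · exact absurd h hP
  · rw [zc_of_ne_zero M hP]
    exact div_ne_zero (E1a_h2_X_ne_zero M v h) (inE1_Y_ne_zero M v hα hβ hP h)

theorem zc_neg {P : E} : zc M (-P) = -zc M P := by
  by_cases hP : P = 0
  · rw [hP, neg_zero, zc_zero, neg_zero]
  · rw [zc_of_ne_zero M (neg_ne_zero.mpr hP), zc_of_ne_zero M hP, M.X_neg P hP, M.Y_neg P hP, div_neg]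

/-- chord case: `P, Q ∈ E₁ ∖ {0}` with `X P ≠ X Q`: the sum is in `E₁ ∖ {0}` and
`z₃ (1 + ρ z₁ z₂) = z₁ + z₂` with `ρ` integral. -/
theorem inE1_add_of_X_ne {P Q : E} (hP : P ≠ 0) (hQ : Q ≠ 0) (hPv : 1 < v (M.X P))
    (hQv : 1 < v (M.X Q)) (hX : M.X P ≠ M.X Q) :
    1 < v (M.X (P + Q)) ∧
      ∃ ρ : L, v ρ ≤ 1 ∧ zc M (P + Q) * (1 + ρ * zc M P * zc M Q) = zc M P + zc M Q := by
  have hXP := E1a_h2_X_ne_zero M v hPv
  have hXQ := E1a_h2_X_ne_zero M v hQv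
  have hI := M.I1τ hP hQ hX hXP hXQ
  have hσ : M.τ Q ^ 2 - M.X Q = (β - α) - α * β / M.X Q := by
    rw [M.τ_sq hQ hXQ]; ring
  obtain ⟨hτ, hδ, h3, hρ⟩ := E1a_h2_core v hα hβ hPv hQv (E1a_h2_v_τ_sq M v hα hβ hP hPv)
    (E1a_h2_v_τ_sq M v hα hβ hQ hQv) hI hσ
  refine ⟨h3, _, hρ, ?_⟩
  have hZ := M.Zid hP hQ hX hXP hXQ hτ hδ
  have hPQ := M.add_ne_zero_of_X_ne hP hQ hX
  have hτP : M.τ P ≠ 0 := by
    rw [M.τ_def]; exact div_ne_zero (inE1_Y_ne_zero M v hα hβ hP hPv) hXP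
  have hτQ : M.τ Q ≠ 0 := by
    rw [M.τ_def]; exact div_ne_zero (inE1_Y_ne_zero M v hα hβ hQ hQv) hXQ
  have hτ3 : M.τ (P + Q) ≠ 0 := by
    rw [M.τ_def]
    exact div_ne_zero (inE1_Y_ne_zero M v hα hβ hPQ h3) (E1a_h2_X_ne_zero M v h3)
  rw [E1a_h2_zc_eq_inv_τ M hPQ, E1a_h2_zc_eq_inv_τ M hP, E1a_h2_zc_eq_inv_τ M hQ]
  exact E1a_h2_field hτP hτQ hτ3 hZ

/-- tangent case -/
theorem inE1_dbl (h2 : (2 : L) ≠ 0) {P : E} (hP : P ≠ 0) (hPv : 1 < v (M.X P)) :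
    P + P ≠ 0 ∧ 1 < v (M.X (P + P)) ∧
      ∃ ρ : L, v ρ ≤ 1 ∧ zc M (P + P) * (1 + ρ * zc M P * zc M P) = zc M P + zc M P := by
  have hXP := E1a_h2_X_ne_zero M v hPv
  have hY := inE1_Y_ne_zero M v hα hβ hP hPv
  have hI := M.dbl_I1τ h2 hP hY
  have hσ : M.τ P ^ 2 - M.X P = (β - α) - α * β / M.X P := by
    rw [M.τ_sq hP hXP]; ring
  have hvτ := E1a_h2_v_τ_sq M v hα hβ hP hPv
  obtain ⟨hτ, hδ, h3, hρ⟩ := E1a_h2_core v hα hβ hPv hPv hvτ hvτ hI hσ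
  have hPP := M.add_self_ne_zero_of_Y_ne_zero h2 hP hY
  refine ⟨hPP, h3, _, hρ, ?_⟩
  have hZ := M.dbl_Zid h2 hP hY hδ
  have hτP : M.τ P ≠ 0 := by
    rw [M.τ_def]; exact div_ne_zero hY hXP
  have hτ3 : M.τ (P + P) ≠ 0 := by
    rw [M.τ_def]
    exact div_ne_zero (inE1_Y_ne_zero M v hα hβ hPP h3) (E1a_h2_X_ne_zero M v h3)
  rw [E1a_h2_zc_eq_inv_τ M hPP, E1a_h2_zc_eq_inv_τ M hP]
  exact E1a_h2_field hτP hτP hτ3 hZ

end

end Fermat.Agent.S05L
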