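import Fermat.Agent.S05L.Chord

/-!
# S05 package: (F3), (Z) and the doubling formulas

(statements frozen)
-/

set_option autoImplicit false

namespace Fermat.Agent.S05L

namespace LegModel

variable {L : Type*} [Field L] {α β : L} {E : Type*} [AddCommGroup E] (M : LegModel L α β E)

/-! ### auxiliary pure field identities -/

/-- pure field form of (F3): `x₃` is the abscissa of the sum, `a = αβ`, `c = β - α`. -/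
theorem Formulas_aux_F3 (x₁ x₂ t₁ t₂ x₃ a c : L) (hx₁ : x₁ ≠ 0) (hx₂ : x₂ ≠ 0) (hx : x₁ ≠ x₂)
    (ht : t₁ + t₂ ≠ 0) (hδ : x₁ * x₂ + a ≠ 0)
    (h1 : t₁ ^ 2 * x₁ = x₁ ^ 2 + c * x₁ - a) (h2 : t₂ ^ 2 * x₂ = x₂ ^ 2 + c * x₂ - a)
    (h3 : x₁ * x₂ * x₃ * (t₁ + t₂) ^ 2 = (x₁ * x₂ + a) ^ 2) :
    -((t₁ * x₁ - t₂ * x₂) / (x₁ - x₂))
        - (t₁ * x₁ - (t₁ * x₁ - t₂ * x₂) / (x₁ - x₂) * x₁) / x₃
      = -t₁ - (x₁ * x₂ + a) / (x₁ * (t₁ + t₂)) + (t₁ + t₂) * (x₁ * x₂) / (x₁ * x₂ + a) := by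
  have hx' : x₁ - x₂ ≠ 0 := sub_ne_zero.mpr hx
  have hΛ : (t₁ * x₁ - t₂ * x₂) / (x₁ - x₂) = t₁ + (x₁ * x₂ + a) / (x₁ * (t₁ + t₂)) := by
    rw [div_eq_iff hx']
    field_simp
    linear_combination x₂ * h1 - x₁ * h2
  have hx₃ : x₃ = (x₁ * x₂ + a) ^ 2 / (x₁ * x₂ * (t₁ + t₂) ^ 2) := by
    rw [eq_div_iff (mul_ne_zero (mul_ne_zero hx₁ hx₂) (pow_ne_zero 2 ht))]
    linear_combination h3
  rw [hΛ, hx₃]
  field_simp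
  ring

/-- pure field identity turning the (F3) expression into the (Z) expression -/
theorem Formulas_aux_Z (x₁ x₂ t₁ t₂ a : L) (hx₁ : x₁ ≠ 0) (hx₂ : x₂ ≠ 0)
    (ht : t₁ + t₂ ≠ 0) (hδ : x₁ * x₂ + a ≠ 0) :
    (-t₁ - (x₁ * x₂ + a) / (x₁ * (t₁ + t₂)) + (t₁ + t₂) * (x₁ * x₂) / (x₁ * x₂ + a)) * (t₁ + t₂)
      = t₁ * t₂ + ((t₂ ^ 2 - x₂) - a / x₁
        - (t₁ + t₂) ^ 2 * (a / (x₁ * x₂)) / (1 + a / (x₁ * x₂))) := by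
  have hx₁₂ : x₁ * x₂ ≠ 0 := mul_ne_zero hx₁ hx₂
  have h1 : 1 + a / (x₁ * x₂) = (x₁ * x₂ + a) / (x₁ * x₂) := by
    field_simp
  have h2 : (t₁ + t₂) ^ 2 * (a / (x₁ * x₂)) / (1 + a / (x₁ * x₂))
      = (t₁ + t₂) ^ 2 * a / (x₁ * x₂ + a) := by
    rw [h1]
    field_simp
  rw [h2]
  field_simp
  ring

/-- pure field form of (F3) for doubling: `x₃` is the abscissa of the double. -/
theorem Formulas_aux_dbl_F3 (x t x₃ a c : L) (h2 : (2 : L) ≠ 0) (hx : x ≠ 0) (ht : t ≠ 0)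
    (hδ : x * x + a ≠ 0) (h1 : t ^ 2 * x = x ^ 2 + c * x - a)
    (h3 : x₃ * (4 * (t * x) ^ 2) = (x ^ 2 + a) ^ 2) :
    -((3 * x ^ 2 + 2 * c * x - a) / (2 * (t * x)) * (x₃ - x) + t * x) / x₃
      = -t - (x * x + a) / (x * (t + t)) + (t + t) * (x * x) / (x * x + a) := by
  have h4 : (4 : L) ≠ 0 := by
    have : (4 : L) = 2 * 2 := by norm_num
    rw [this]
    exact mul_ne_zero h2 h2
  have htx : t * x ≠ 0 := mul_ne_zero ht hx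
  have hδ' : x ^ 2 + a ≠ 0 := by
    rw [pow_two]
    exact hδ
  rw [← two_mul t, ← pow_two x]
  have hΛ : (3 * x ^ 2 + 2 * c * x - a) / (2 * (t * x)) = t + (x ^ 2 + a) / (x * (2 * t)) := by
    rw [div_eq_iff (mul_ne_zero h2 htx)]
    field_simp
    linear_combination (-2 : L) * h1
  have hx₃ : x₃ = (x ^ 2 + a) ^ 2 / (4 * (t * x) ^ 2) := by
    rw [eq_div_iff (mul_ne_zero h4 (pow_ne_zero 2 htx))]
    linear_combination h3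
  rw [hΛ, hx₃]
  field_simp
  ring

/-- polynomial form of `τ_sq` -/
theorem Formulas_aux_τ_sq_mul {P : E} (hP : P ≠ 0) (hX : M.X P ≠ 0) :
    M.τ P ^ 2 * M.X P = M.X P ^ 2 + (β - α) * M.X P - α * β := by
  rw [M.τ_sq hP hX]
  field_simp

/-- a point with `Y ≠ 0` has `X ≠ 0` -/
theorem Formulas_aux_X_ne_zero {P : E} (hP : P ≠ 0) (hY : M.Y P ≠ 0) : M.X P ≠ 0 := by
  intro hX
  have h := M.eqn P hP
  rw [hX] at h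
  apply hY
  have h0 : M.Y P ^ 2 = 0 := by
    rw [h]
    ring
  exact pow_eq_zero_iff (two_ne_zero) |>.mp h0

/-- a point with `Y ≠ 0` has `τ ≠ 0` -/
theorem Formulas_aux_τ_ne_zero {P : E} (hP : P ≠ 0) (hY : M.Y P ≠ 0) : M.τ P ≠ 0 := by
  rw [M.τ_def]
  exact div_ne_zero hY (M.Formulas_aux_X_ne_zero hP hY)

/-- (F3) -/
theorem F3 {P Q : E} (hP : P ≠ 0) (hQ : Q ≠ 0) (h : M.X P ≠ M.X Q)
    (hXP : M.X P ≠ 0) (hXQ : M.X Q ≠ 0) (hτ : M.τ P + M.τ Q ≠ 0)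
    (hδ : M.X P * M.X Q + α * β ≠ 0) :
    M.τ (P + Q) = -M.τ P - (M.X P * M.X Q + α * β) / (M.X P * (M.τ P + M.τ Q))
      + (M.τ P + M.τ Q) * (M.X P * M.X Q) / (M.X P * M.X Q + α * β) := by
  have hI := M.I1τ hP hQ h hXP hXQ
  have h3 : M.X (P + Q) ≠ 0 := by
    intro h0
    rw [h0, mul_zero, zero_mul] at hI
    exact hδ (pow_eq_zero_iff (two_ne_zero) |>.mp hI.symm)
  rw [M.τ_add hP hQ h h3, M.Y_eq_τ_mul_X hXP, M.Y_eq_τ_mul_X hXQ]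
  exact Formulas_aux_F3 (M.X P) (M.X Q) (M.τ P) (M.τ Q) (M.X (P + Q)) (α * β) (β - α)
    hXP hXQ h hτ hδ (M.Formulas_aux_τ_sq_mul hP hXP) (M.Formulas_aux_τ_sq_mul hQ hXQ) hI

/-- (Z) -/
theorem Zid {P Q : E} (hP : P ≠ 0) (hQ : Q ≠ 0) (h : M.X P ≠ M.X Q)
    (hXP : M.X P ≠ 0) (hXQ : M.X Q ≠ 0) (hτ : M.τ P + M.τ Q ≠ 0)
    (hδ : M.X P * M.X Q + α * β ≠ 0) :
    M.τ (P + Q) * (M.τ P + M.τ Q) = M.τ P * M.τ Q
      + ((M.τ Q ^ 2 - M.X Q) - α * β / M.X P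
        - (M.τ P + M.τ Q) ^ 2 * (α * β / (M.X P * M.X Q)) / (1 + α * β / (M.X P * M.X Q))) := by
  rw [M.F3 hP hQ h hXP hXQ hτ hδ]
  exact Formulas_aux_Z (M.X P) (M.X Q) (M.τ P) (M.τ Q) (α * β) hXP hXQ hτ hδ

/-- `τ₁² - τ₂² = (X₁ - X₂)(1 + αβ/(X₁X₂))` -/
theorem τ_sq_sub_τ_sq {P Q : E} (hP : P ≠ 0) (hQ : Q ≠ 0) (hXP : M.X P ≠ 0) (hXQ : M.X Q ≠ 0) :
    M.τ P ^ 2 - M.τ Q ^ 2 = (M.X P - M.X Q) * (1 + α * β / (M.X P * M.X Q)) := by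
  rw [M.τ_sq hP hXP, M.τ_sq hQ hXQ]
  field_simp
  ring

/-! ### doubling -/

theorem dbl_X (h2 : (2 : L) ≠ 0) {P : E} (hP : P ≠ 0) (hY : M.Y P ≠ 0) :
    M.X (P + P) * (4 * M.Y P ^ 2) = (M.X P ^ 2 + α * β) ^ 2 := by
  have key : M.X (P + P) * (4 * M.Y P ^ 2)
      = (3 * M.X P ^ 2 + 2 * (β - α) * M.X P - α * β) ^ 2
        - 4 * M.Y P ^ 2 * ((β - α) + 2 * M.X P) := by
    rw [M.X_dbl P hP hY]
    field_simp
    ring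
  rw [key]
  linear_combination (-4 * ((β - α) + 2 * M.X P)) * M.eqn P hP

/-- (I1) in `τ`-form for doubling: `X² X(2P) (2τ)² = (X² + αβ)²` -/
theorem dbl_I1τ (h2 : (2 : L) ≠ 0) {P : E} (hP : P ≠ 0) (hY : M.Y P ≠ 0) :
    M.X P * M.X P * M.X (P + P) * (M.τ P + M.τ P) ^ 2 = (M.X P * M.X P + α * β) ^ 2 := by
  have hX : M.X P ≠ 0 := M.Formulas_aux_X_ne_zero hP hY
  have hd := M.dbl_X h2 hP hY
  rw [M.Y_eq_τ_mul_X hX] at hd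
  linear_combination hd

/-- (F3) for doubling -/
theorem dbl_F3 (h2 : (2 : L) ≠ 0) {P : E} (hP : P ≠ 0) (hY : M.Y P ≠ 0)
    (hδ : M.X P * M.X P + α * β ≠ 0) :
    M.τ (P + P) = -M.τ P - (M.X P * M.X P + α * β) / (M.X P * (M.τ P + M.τ P))
      + (M.τ P + M.τ P) * (M.X P * M.X P) / (M.X P * M.X P + α * β) := by
  have hX : M.X P ≠ 0 := M.Formulas_aux_X_ne_zero hP hY
  have hτ : M.τ P ≠ 0 := M.Formulas_aux_τ_ne_zero hP hY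
  have hd := M.dbl_X h2 hP hY
  have hYd := M.Y_dbl P hP hY
  rw [M.Y_eq_τ_mul_X hX] at hd hYd
  rw [M.τ_def (P + P), hYd]
  exact Formulas_aux_dbl_F3 (M.X P) (M.τ P) (M.X (P + P)) (α * β) (β - α) h2 hX hτ hδ
    (M.Formulas_aux_τ_sq_mul hP hX) hd

/-- (Z) for doubling -/
theorem dbl_Zid (h2 : (2 : L) ≠ 0) {P : E} (hP : P ≠ 0) (hY : M.Y P ≠ 0)
    (hδ : M.X P * M.X P + α * β ≠ 0) :
    M.τ (P + P) * (M.τ P + M.τ P) = M.τ P * M.τ P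
      + ((M.τ P ^ 2 - M.X P) - α * β / M.X P
        - (M.τ P + M.τ P) ^ 2 * (α * β / (M.X P * M.X P)) / (1 + α * β / (M.X P * M.X P))) := by
  have hX : M.X P ≠ 0 := M.Formulas_aux_X_ne_zero hP hY
  have hτ : M.τ P ≠ 0 := M.Formulas_aux_τ_ne_zero hP hY
  have hττ : M.τ P + M.τ P ≠ 0 := by
    rw [← two_mul]
    exact mul_ne_zero h2 hτ
  rw [M.dbl_F3 h2 hP hY hδ]
  exact Formulas_aux_Z (M.X P) (M.X P) (M.τ P) (M.τ P) (α * β) hX hX hττ hδ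

end LegModel

end Fermat.Agent.S05L
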