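import Fermat.Agent.S05L.Congr

/-!
# S05 package, part 1c: the good reduction case (statement frozen)
-/

set_option autoImplicit false

namespace Fermat.Agent.S05L

variable {L : Type*} [Field L] {α β : L} {E : Type*} [AddCommGroup E] (M : LegModel L α β E)
  {Γ₀ : Type*} [LinearOrderedCommGroupWithZero Γ₀] (v : Valuation L Γ₀)

/-- **1c**: if `α, β, α + β, 2, n` are units and `σ` is "inertial" (`σ 𝒱 = 𝒱`, trivial on the
residue field), then `σ` fixes the `n`-torsion. -/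
theorem good_main (h2 : v (2 : L) = 1) (hα : v α = 1) (hβ : v β = 1) (hαβ : v (α + β) = 1)
    (n : ℕ) (hn : v (n : L) = 1)
    (σ : L →+* L) (hσ : ∀ x : L, v x ≤ 1 ↔ v (σ x) ≤ 1) (hσm : ∀ x : L, v x ≤ 1 → v (σ x - x) < 1)
    (A : LegAut M σ) (P : E) (hP : n • P = 0) : A.φ P = P := by
  -- (the hypothesis `hσ` is not needed for this argument)
  have _ := hσ
  by_cases hP0 : P = 0
  · rw [hP0, map_zero]
  have h20 : (2 : L) ≠ 0 := by
    intro h
    rw [h, map_zero] at h2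
    exact zero_ne_one h2
  have hα' : v α ≤ 1 := hα.le
  have hβ' : v β ≤ 1 := hβ.le
  -- `X P` is integral: otherwise `P ∈ E₁`, which has no `n`-torsion
  have hX : v (M.X P) ≤ 1 := by
    by_contra hlt
    exact hP0 (inE1_eq_zero_of_nsmul_eq_zero M v hα' hβ' h20 (Or.inr (not_le.mp hlt)) n hn hP)
  have hQ : A.φ P ≠ 0 := A.ne_zero P hP0
  have hXd : v (M.X (A.φ P) - M.X P) < 1 := by
    rw [A.X_φ P hP0]
    exact hσm _ hX
  have hYd : v (M.Y (A.φ P) - M.Y P) < 1 := by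
    rw [A.Y_φ P hP0]
    exact hσm _ (v_Y_le_one M v hα' hβ' hP0 hX)
  have hE1 : InE1 M v (A.φ P - P) :=
    congr_sub_inE1 M v h2 hα' hβ' hP0 hQ hX hXd hYd (nonsing_of_good M v hα hβ hαβ hP0 hX)
  have hn0 : n • (A.φ P - P) = 0 := by
    rw [smul_sub, ← map_nsmul, hP, map_zero, sub_zero]
  exact sub_eq_zero.mp (inE1_eq_zero_of_nsmul_eq_zero M v hα' hβ' h20 hE1 n hn hn0)

end Fermat.Agent.S05L
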