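import Fermat.Agent.S05L.E1
import Fermat.Agent.S05L.Cls

/-!
# S05 package, part 1d (definitions): types of points in the multiplicative case, component map

(statements frozen)  Multiplicative valuation `v`; `v β < 1` (node at `X = 0`), `s² = -α`.
* `InE0`  : `P = 0` or `X ∉ 𝔪`            (`1 ≤ v X`)
* `IsNear`: `X ∈ 𝔪`, `β / X ∈ 𝔪`          (`v β < v X < 1`); sign `+` if `τ ≡ s`, `-` if `τ ≡ -s`
* `IsFar` : `v X ≤ v β`
The component group is `CQ v β = Γ₀ˣ ⧸ ⟨v(β)²⟩` and `comp : E → CQ v β`.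
-/

set_option autoImplicit false

namespace Fermat.Agent.S05L

variable {L : Type*} [Field L] {α β : L} {E : Type*} [AddCommGroup E] (M : LegModel L α β E)
  {Γ₀ : Type*} [LinearOrderedCommGroupWithZero Γ₀] (v : Valuation L Γ₀)

/-! ### types -/

/-- `P = 0` or `X(P) ∉ 𝔪` -/
def InE0 (P : E) : Prop := P = 0 ∨ 1 ≤ v (M.X P)

/-- `0 < "ord" X < "ord" β` -/
def IsNear (P : E) : Prop := P ≠ 0 ∧ v β < v (M.X P) ∧ v (M.X P) < 1

/-- near with `τ ≡ s` -/
def IsNearP (s : L) (P : E) : Prop := IsNear M v P ∧ v (M.τ P - s) < 1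

/-- near with `τ ≡ -s` -/
def IsNearM (s : L) (P : E) : Prop := IsNear M v P ∧ v (M.τ P + s) < 1

/-- `"ord" X ≥ "ord" β` (including `X = 0`) -/
def IsFar (P : E) : Prop := P ≠ 0 ∧ v (M.X P) ≤ v β

/-- the component map -/
noncomputable def comp (s : L) (P : E) : CQ v β :=
  open Classical in
  if InE0 M v P then 1
  else if IsNearP M v s P then cls v β (M.X P)
  else if IsNearM M v s P then (cls v β (M.X P))⁻¹
  else cls v β β

theorem inE0_of_inE1 {P : E} (h : InE1 M v P) : InE0 M v P := by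
  exact h.imp id le_of_lt

theorem type_cases (P : E) : InE0 M v P ∨ IsNear M v P ∨ IsFar M v P := by
  by_cases hP : P = 0
  · exact Or.inl (Or.inl hP)
  · by_cases h1 : 1 ≤ v (M.X P)
    · exact Or.inl (Or.inr h1)
    · by_cases h2 : v β < v (M.X P)
      · exact Or.inr (Or.inl ⟨hP, h2, lt_of_not_ge h1⟩)
      · exact Or.inr (Or.inr ⟨hP, le_of_not_gt h2⟩)

section
variable (hβ : v β < 1)
include hβ

theorem not_inE0_of_isNear {P : E} (h : IsNear M v P) : ¬ InE0 M v P := by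
  have _ := hβ
  rintro (h0 | h1)
  · exact h.1 h0
  · exact absurd h.2.2 (not_lt_of_ge h1)

theorem not_inE0_of_isFar {P : E} (h : IsFar M v P) : ¬ InE0 M v P := by
  rintro (h0 | h1)
  · exact h.1 h0
  · exact absurd (lt_of_le_of_lt h.2 hβ) (not_lt_of_ge h1)

theorem not_isNear_of_isFar {P : E} (h : IsFar M v P) : ¬ IsNear M v P := by
  have _ := hβ
  intro h'
  exact absurd h'.2.1 (not_lt_of_ge h.2)

theorem isFar_T0 : IsFar M v M.T0 := by
  have _ := hβ
  refine ⟨M.T0_ne_zero, ?_⟩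
  rw [M.X_T0, map_zero]
  exact zero_le

theorem X_ne_zero_of_isNear {P : E} (h : IsNear M v P) : M.X P ≠ 0 := by
  have _ := hβ
  intro h0
  have h1 := h.2.1
  rw [h0, map_zero] at h1
  exact not_lt_zero h1

end

section
variable (hα : v α = 1) (hβ : v β < 1) (h2 : v (2 : L) = 1) (s : L) (hs : s ^ 2 = -α)
include hα hβ h2 hs

theorem v_s : v s = 1 := by
  have _ := hβ
  have _ := h2
  have h1 : v s ^ 2 = 1 := by
    rw [← map_pow, hs, Valuation.map_neg, hα]
  exact (pow_eq_one_iff_of_nonneg zero_le two_ne_zero).1 h1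

/-- on a near point, `τ² ≡ -α`, so `τ` is a unit -/
theorem isNear_τ {P : E} (h : IsNear M v P) : v (M.τ P ^ 2 + α) < 1 ∧ v (M.τ P) = 1 := by
  have _ := h2
  have _ := hs
  obtain ⟨hP, h1, h2'⟩ := h
  have hX : M.X P ≠ 0 := X_ne_zero_of_isNear M v hβ ⟨hP, h1, h2'⟩
  have hvX : 0 < v (M.X P) := zero_lt_iff.2 ((Valuation.ne_zero_iff v).2 hX)
  have hτ : M.τ P ^ 2 + α = M.X P + β - α * β / M.X P := by
    rw [M.τ_sq hP hX]; ring
  have h3 : v (α * β / M.X P) < 1 := by
    rw [map_div₀, map_mul, hα, one_mul]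
    exact (div_lt_one₀ hvX).2 h1
  have h4 : v (M.τ P ^ 2 + α) < 1 := by
    rw [hτ]
    exact Valuation.map_sub_lt v (Valuation.map_add_lt v h2' hβ) h3
  refine ⟨h4, ?_⟩
  have h5 : v (M.τ P ^ 2) = 1 := by
    have h6 : M.τ P ^ 2 = (M.τ P ^ 2 + α) + (-α) := by ring
    have h7 : v (M.τ P ^ 2 + α) < v (-α) := by
      rw [Valuation.map_neg, hα]; exact h4
    rw [h6, Valuation.map_add_eq_of_lt_right v h7, Valuation.map_neg, hα]
  rw [map_pow] at h5
  exact (pow_eq_one_iff_of_nonneg zero_le two_ne_zero).1 h5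

theorem isNear_sign {P : E} (h : IsNear M v P) : IsNearP M v s P ∨ IsNearM M v s P := by
  have h1 := (isNear_τ M v hα hβ h2 s hs h).1
  have h3 : (M.τ P - s) * (M.τ P + s) = M.τ P ^ 2 + α := by
    have : (M.τ P - s) * (M.τ P + s) = M.τ P ^ 2 - s ^ 2 := by ring
    rw [this, hs]; ring
  by_contra hcon
  rw [not_or] at hcon
  have h4 : 1 ≤ v (M.τ P - s) := le_of_not_gt fun h' => hcon.1 ⟨h, h'⟩
  have h5 : 1 ≤ v (M.τ P + s) := le_of_not_gt fun h' => hcon.2 ⟨h, h'⟩
  have h6 : 1 ≤ v ((M.τ P - s) * (M.τ P + s)) := by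
    rw [map_mul]
    exact one_le_mul_of_one_le_of_one_le h4 h5
  rw [h3] at h6
  exact absurd h1 (not_lt_of_ge h6)

theorem not_isNearP_and_isNearM {P : E} : ¬ (IsNearP M v s P ∧ IsNearM M v s P) := by
  rintro ⟨⟨-, h3⟩, ⟨-, h4⟩⟩
  have h5 : v ((M.τ P + s) - (M.τ P - s)) < 1 := Valuation.map_sub_lt v h4 h3
  have h6 : (M.τ P + s) - (M.τ P - s) = 2 * s := by ring
  rw [h6, map_mul, h2, v_s v hα hβ h2 s hs, one_mul] at h5
  exact lt_irrefl _ h5

/-! ### values of `comp` -/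

theorem comp_of_inE0 {P : E} (h : InE0 M v P) : comp M v s P = 1 := by
  have _ := hα
  have _ := hβ
  have _ := h2
  have _ := hs
  unfold comp
  rw [if_pos h]

theorem comp_of_isNearP {P : E} (h : IsNearP M v s P) : comp M v s P = cls v β (M.X P) := by
  have _ := hα
  have _ := h2
  have _ := hs
  unfold comp
  rw [if_neg (not_inE0_of_isNear M v hβ h.1), if_pos h]

theorem comp_of_isNearM {P : E} (h : IsNearM M v s P) : comp M v s P = (cls v β (M.X P))⁻¹ := by
  unfold comp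
  rw [if_neg (not_inE0_of_isNear M v hβ h.1),
    if_neg (fun h' => not_isNearP_and_isNearM M v hα hβ h2 s hs ⟨h', h⟩), if_pos h]

theorem comp_of_isFar {P : E} (h : IsFar M v P) : comp M v s P = cls v β β := by
  have _ := hα
  have _ := h2
  have _ := hs
  unfold comp
  rw [if_neg (not_inE0_of_isFar M v hβ h),
    if_neg (fun h' => not_isNear_of_isFar M v hβ h h'.1),
    if_neg (fun h' => not_isNear_of_isFar M v hβ h h'.1)]

/-! ### negation -/

theorem inE0_neg {P : E} (h : InE0 M v P) : InE0 M v (-P) := by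
  have _ := hα
  have _ := hβ
  have _ := h2
  have _ := hs
  by_cases hP : P = 0
  · exact Or.inl (by rw [hP, neg_zero])
  · rcases h with h0 | h1
    · exact absurd h0 hP
    · exact Or.inr (by rw [M.X_neg P hP]; exact h1)

theorem isNearM_neg {P : E} (h : IsNearP M v s P) : IsNearM M v s (-P) := by
  have _ := hα
  have _ := hβ
  have _ := h2
  have _ := hs
  obtain ⟨⟨hP, h1, h2'⟩, h3⟩ := h
  refine ⟨⟨neg_ne_zero.mpr hP, by rw [M.X_neg P hP]; exact h1, by rw [M.X_neg P hP]; exact h2'⟩, ?_⟩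
  have h4 : M.τ (-P) + s = -(M.τ P - s) := by rw [M.τ_neg hP]; ring
  rw [h4, Valuation.map_neg]
  exact h3

theorem isNearP_neg {P : E} (h : IsNearM M v s P) : IsNearP M v s (-P) := by
  have _ := hα
  have _ := hβ
  have _ := h2
  have _ := hs
  obtain ⟨⟨hP, h1, h2'⟩, h3⟩ := h
  refine ⟨⟨neg_ne_zero.mpr hP, by rw [M.X_neg P hP]; exact h1, by rw [M.X_neg P hP]; exact h2'⟩, ?_⟩
  have h4 : M.τ (-P) - s = -(M.τ P + s) := by rw [M.τ_neg hP]; ring
  rw [h4, Valuation.map_neg]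
  exact h3

theorem isFar_neg {P : E} (h : IsFar M v P) : IsFar M v (-P) := by
  have _ := hα
  have _ := hβ
  have _ := h2
  have _ := hs
  exact ⟨neg_ne_zero.mpr h.1, by rw [M.X_neg P h.1]; exact h.2⟩

theorem comp_neg (P : E) : comp M v s (-P) = (comp M v s P)⁻¹ := by
  rcases type_cases M v P with h | h | h
  · rw [comp_of_inE0 M v hα hβ h2 s hs h,
      comp_of_inE0 M v hα hβ h2 s hs (inE0_neg M v hα hβ h2 s hs h), inv_one]
  · rcases isNear_sign M v hα hβ h2 s hs h with h' | h'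
    · rw [comp_of_isNearP M v hα hβ h2 s hs h',
        comp_of_isNearM M v hα hβ h2 s hs (isNearM_neg M v hα hβ h2 s hs h'), M.X_neg P h.1]
    · rw [comp_of_isNearM M v hα hβ h2 s hs h',
        comp_of_isNearP M v hα hβ h2 s hs (isNearP_neg M v hα hβ h2 s hs h'), M.X_neg P h.1,
        inv_inv]
  · rw [comp_of_isFar M v hα hβ h2 s hs h,
      comp_of_isFar M v hα hβ h2 s hs (isFar_neg M v hα hβ h2 s hs h), cls_β_inv]

end

end Fermat.Agent.S05L
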